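import Fermat.Agent.AdH1.Dick

/-!
# A piece of Dickson's theorem: the count
-/

set_option autoImplicit false
set_option maxHeartbeats 400000

noncomputable section

namespace Fermat.Agent.AdH1

open Matrix OnePoint MulAction

variable {K : Type*} [Field K] [DecidableEq K] {G : Type*} [Group G] {r : G →* GL (Fin 2) K}

omit [DecidableEq K] in
theorem pa_conj {g : G} (hg : g ∈ Pa r) (h : G) : h * g * h⁻¹ ∈ Pa r := by
  refine ⟨?_, ?_⟩
  · intro h3
    apply hg.1
    have h4 := sc_conj (A := r h⁻¹) h3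
    rw [← mt_conj] at h4
    have e : h⁻¹ * (h * g * h⁻¹) * (h⁻¹)⁻¹ = g := by group
    rwa [e] at h4
  · rw [mt_conj, dsc_conj]
    exact hg.2

omit [DecidableEq K] in
theorem pa_conj' {g : G} (hg : g ∈ Pa r) (h : G) : h⁻¹ * g * h ∈ Pa r := by
  have := pa_conj hg h⁻¹
  rwa [inv_inv] at this

omit [DecidableEq K] in
theorem two_ne {p : ℕ} [hp : Fact p.Prime] [CharP K p] (hp2 : p ≠ 2) : (2 : K) ≠ 0 := by
  intro h
  have h3 : ((2 : ℕ) : K) = 0 := by exact_mod_cast h
  rw [CharP.cast_eq_zero_iff K p] at h3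
  exact hp2 ((Nat.prime_dvd_prime_iff_eq hp.out Nat.prime_two).mp h3)

/-- the number of parabolic elements -/
theorem card_Pa [Finite G] [IsAlgClosed K] {p : ℕ} [hp : Fact p.Prime] [CharP K p] (hp2 : p ≠ 2)
    (hinj : Function.Injective r) (hdet : ∀ g, (mt r g).det = 1) (P : Sylow p G)
    (hP : ∀ u ∈ P, mt r u 1 0 = 0) {o : Pt r} (ho : o.1 = ∞) :
    Nat.card (Pa r) = Nat.card (Zs r) * (Nat.card (orbit G o) * (Nat.card (Us r hdet) - 1)) := by
  classical
  have hfin : Finite (Pt r) := Pt.finite (two_ne (p := p) hp2)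
  have := Fintype.ofFinite (Pt r)
  have := Fintype.ofFinite (orbit G o)
  have h1 : Nat.card (Σ ω : orbit G o, {g : G // g ∈ Pa r ∧ g • ω.1 = ω.1}) = Nat.card (Pa r) := by
    refine Nat.card_congr (Equiv.ofBijective (fun x => ⟨x.2.1, x.2.2.1⟩) ⟨?_, ?_⟩)
    · rintro ⟨⟨ω, hω⟩, ⟨g, hg1, hg2⟩⟩ ⟨⟨ω', hω'⟩, ⟨g', hg1', hg2'⟩⟩ h
      have e : g = g' := congrArg (fun x : Pa r => (x : G)) h
      subst e
      obtain ⟨ω₀, h0⟩ := Pt.fix_one (two_ne (p := p) hp2) hg1.1 hg1.2
      have e1 : ω = ω' := by rw [(h0 ω).mp hg2, (h0 ω').mp hg2']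
      subst e1
      rfl
    · rintro ⟨g, hg⟩
      obtain ⟨h, hh⟩ := pa_fix hp2 hinj hdet P hP hg
      refine ⟨⟨⟨h • o, mem_orbit _ _⟩, ⟨g, hg, ?_⟩⟩, rfl⟩
      have h2 : (h⁻¹ * g * h) • o = o := by
        rw [Pt.smul_eq_iff, ho]
        exact fix_infty.mpr hh
      change g • h • o = h • o
      rw [mul_smul, mul_smul, inv_smul_eq_iff] at h2
      exact h2
  rw [← h1, Nat.card_sigma]
  have h2 : ∀ ω : orbit G o, Nat.card {g : G // g ∈ Pa r ∧ g • ω.1 = ω.1} =
      Nat.card (Zs r) * (Nat.card (Us r hdet) - 1) := by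
    rintro ⟨ω, h, rfl⟩
    rw [← card_Pa_St hp2 hinj hdet]
    refine Nat.card_congr (Equiv.ofBijective
      (fun x => ⟨h⁻¹ * x.1 * h, pa_conj' x.2.1 h, ?_⟩) ⟨?_, ?_⟩)
    · have h3 : x.1 • h • o = h • o := x.2.2
      apply fix_infty.mp
      change r (h⁻¹ * x.1 * h) • (∞ : OnePoint K) = ∞
      have h4 : (h⁻¹ * x.1 * h) • o = o := by
        rw [mul_smul, mul_smul, h3, inv_smul_smul]
      rwa [Pt.smul_eq_iff, ho] at h4
    · rintro ⟨g, hg⟩ ⟨g', hg'⟩ h3
      have h4 : h⁻¹ * g * h = h⁻¹ * g' * h :=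
        congrArg (fun x : {g : G // g ∈ Pa r ∧ mt r g 1 0 = 0} => (x : G)) h3
      exact Subtype.ext (mul_left_cancel (mul_right_cancel h4))
    · rintro ⟨g, hg1, hg2⟩
      refine ⟨⟨h * g * h⁻¹, pa_conj hg1 h, ?_⟩, Subtype.ext ?_⟩
      · change (h * g * h⁻¹) • h • o = h • o
        have h4 : g • o = o := by
          rw [Pt.smul_eq_iff, ho]
          exact fix_infty.mpr hg2
        rw [mul_smul, mul_smul, inv_smul_smul, h4]
      · change h⁻¹ * (h * g * h⁻¹) * h = g
        group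
  rw [Finset.sum_congr rfl fun ω _ => h2 ω, Finset.sum_const, smul_eq_mul, Finset.card_univ,
    ← Nat.card_eq_fintype_card]
  ring

/-- unipotents act freely on the orbit minus infinity -/
theorem card_orbit_one [Finite G] [IsAlgClosed K] {p : ℕ} [hp : Fact p.Prime] [CharP K p]
    (hp2 : p ≠ 2)
    (hinj : Function.Injective r) (hdet : ∀ g, (mt r g).det = 1) {o : Pt r} (ho : o.1 = ∞) :
    ∃ f, Nat.card (orbit G o) = 1 + f * Nat.card (Us r hdet) := by
  classical
  have hfin : Finite (Pt r) := Pt.finite (two_ne (p := p) hp2)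
  have hUo : ∀ u ∈ Us r hdet, u • o = o := by
    intro u hu
    rw [Pt.smul_eq_iff, ho]
    exact fix_infty.mpr hu.1
  let O' : SubMulAction (Us r hdet) (Pt r) :=
    { carrier := {ω | ω ∈ orbit G o ∧ ω ≠ o}
      smul_mem' := by
        rintro ⟨u, hu⟩ ω ⟨h1, h2⟩
        refine ⟨?_, ?_⟩
        · obtain ⟨g, rfl⟩ := h1
          exact ⟨u * g, mul_smul u g o⟩
        · intro h3
          apply h2
          have h4 : u • ω = o := h3
          rw [← hUo u hu] at h4
          exact MulAction.injective u h4 }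
  have hfree : ∀ b : O', stabilizer (Us r hdet) b = ⊥ := by
    rintro ⟨ω, hω1, hω2⟩
    rw [eq_bot_iff]
    rintro ⟨u, hu⟩ h
    have h1 : u • ω = ω := congrArg (fun x : O' => (x : Pt r)) (MulAction.mem_stabilizer_iff.mp h)
    rw [Subgroup.mem_bot]
    refine Subtype.ext ?_
    change u = 1
    by_contra hu1
    apply hω2
    have hns : ¬ Sc (mt r u) := fun h => hu1 (Us_Zs hinj hu h)
    have hd : dsc (mt r u) = 0 := by
      rw [dsc, hu.1, hu.2, Us_11 hu]; ring
    obtain ⟨ω₀, h0⟩ := Pt.fix_one (two_ne (p := p) hp2) hns hd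
    rw [(h0 ω).mp h1, (h0 o).mp (hUo u hu)]
  refine ⟨Nat.card (Quotient (orbitRel (Us r hdet) O')), ?_⟩
  rw [← Nat.card_prod, ← Nat.card_congr (selfEquivOrbitsQuotientProd hfree)]
  have h1 : orbit G o = insert o {ω | ω ∈ orbit G o ∧ ω ≠ o} := by
    ext ω
    constructor
    · intro h
      by_cases h2 : ω = o
      · exact Or.inl h2
      · exact Or.inr ⟨h, h2⟩
    · rintro (h | h)
      · rw [h]; exact mem_orbit_self o
      · exact h.1
  have h2 : Nat.card O' = ({ω | ω ∈ orbit G o ∧ ω ≠ o} : Set (Pt r)).ncard := by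
    rw [← Nat.card_coe_set_eq]
    rfl
  rw [h2, Nat.card_coe_set_eq]
  conv_lhs => rw [h1]
  rw [Set.ncard_insert_of_notMem (fun h => h.2 rfl) (Set.toFinite _), add_comm]

/-- **Dickson-lite**: a finite subgroup of `SL₂(K)` whose Sylow `p`-subgroup has order `q > 2`
and which moves the line of this Sylow subgroup has a big torus. -/
theorem dickson [Finite G] [IsAlgClosed K] {p : ℕ} [hp : Fact p.Prime] [CharP K p] (hp2 : p ≠ 2)
    (hinj : Function.Injective r) (hdet : ∀ g, (mt r g).det = 1) (P : Sylow p G)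
    (hP : ∀ u ∈ P, mt r u 1 0 = 0) (hq : 2 < Nat.card P) (hne : ∃ g, mt r g 1 0 ≠ 0) :
    Nat.card P - 1 ≤ 2 * Nat.card (Lam r) := by
  classical
  have hPU : (P : Subgroup G) = Us r hdet := sylow_eq_Us hinj hdet P hP
  have hcP : Nat.card P = Nat.card (Us r hdet) := by
    rw [← hPU]
  rw [hcP] at hq ⊢
  set q := Nat.card (Us r hdet) with hqd
  have hfin : Finite (Pt r) := Pt.finite (two_ne (p := p) hp2)
  -- a nontrivial unipotent
  obtain ⟨u, hu, hu1⟩ : ∃ u ∈ Us r hdet, u ≠ 1 := by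
    by_contra hcon
    push Not at hcon
    have : Us r hdet = ⊥ := (Subgroup.eq_bot_iff_forall _).mpr hcon
    rw [hqd, this, Subgroup.card_bot] at hq
    omega
  have hns : ¬ Sc (mt r u) := fun h => hu1 (Us_Zs hinj hu h)
  let o : Pt r := Pt.inf hns hu.1
  have ho : o.1 = ∞ := rfl
  have hst : stabilizer G o = St r hdet := by
    ext g
    rw [mem_stabilizer_iff, Pt.smul_eq_iff, ho]
    exact fix_infty
  have hn : Nat.card (orbit G o) * (Nat.card (Zs r) * q * Nat.card (Lam r)) = Nat.card G := by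
    rw [← card_St hp2 hinj hdet, ← hst, Subgroup.card_eq_card_quotient_mul_card_subgroup
      (stabilizer G o), ← Nat.card_congr (orbitEquivQuotientStabilizer G o)]
  obtain ⟨f, hf⟩ := card_orbit_one (p := p) hp2 hinj hdet ho
  have hf0 : 0 < f := by
    rcases Nat.eq_zero_or_pos f with h | h
    · exfalso
      rw [h, zero_mul, add_zero, Nat.card_coe_set_eq, Set.ncard_eq_one] at hf
      obtain ⟨a, ha⟩ := hf
      obtain ⟨g, hg⟩ := hne
      apply hg
      have h1 : g • o ∈ orbit G o := mem_orbit _ _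
      have h2 : o ∈ orbit G o := mem_orbit_self _
      rw [ha] at h1 h2
      have h3 : g • o = o := by rw [Set.mem_singleton_iff.mp h1, ← Set.mem_singleton_iff.mp h2]
      rw [Pt.smul_eq_iff, ho] at h3
      exact fix_infty.mp h3
    · exact h
  have he0 : 0 < Nat.card (Lam r) := by
    rcases Nat.eq_zero_or_pos (Nat.card (Lam r)) with h | h
    · exfalso
      rw [h, mul_zero, mul_zero] at hn
      exact Nat.card_pos.ne' hn.symm
    · exact h
  obtain ⟨g, hg1, hg2⟩ := orbit_count (G := G) (Ω := Pt r) (Z := Zs r) (Par := Pa r) (q := q) hq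
    (fun z hz ω => by
      rw [Pt.smul_eq_iff]
      exact Sc.smul hz ω.1)
    (fun g hg1 hg2 => Pt.card_fix_two (two_ne (p := p) hp2) fun h => hg2 ⟨hg1, h⟩)
    (fun g hg => ⟨hg.1, Pt.card_fix_one (two_ne (p := p) hp2) hg.1 hg.2⟩)
    (fun ω => by
      obtain ⟨g, h1, h2⟩ := ω.2
      exact ⟨g, h1, Subtype.ext h2⟩)
    o (card_Pa hp2 hinj hdet P hP ho)
  have hZ0 : 0 < Nat.card (Zs r) := Nat.card_pos
  have hg3 : g = q * Nat.card (Lam r) * Nat.card (orbit G o) := by
    apply Nat.eq_of_mul_eq_mul_left hZ0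
    rw [← hg1, ← hn]
    ring
  rw [hg3] at hg2
  exact arith_of_dvd (by omega) he0 hf0 hf hg2

end Fermat.Agent.AdH1
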