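import Fermat.Agent.AdH1.Par
import Fermat.Agent.AdH1.Dick2

/-!
# The two cases
-/

set_option autoImplicit false
set_option maxHeartbeats 400000

noncomputable section

namespace Fermat.Agent.AdH1

open Matrix

variable {k : Type*} [Field k] {G : Type*} [Group G]
  {r : G →* GL (Fin 2) k} {c : G → Matrix (Fin 2) (Fin 2) k}

theorem un_zpow {u : G} (hu : Un (mt r u)) {P : Subgroup G} (hP : ∀ u ∈ P, Un (mt r u))
    (huP : u ∈ P) (n : ℕ) : mt r (u ^ n) 0 1 = n * mt r u 0 1 := by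
  induction n with
  | zero =>
    rw [pow_zero, mt_one, Nat.cast_zero, zero_mul]
    rfl
  | succ n ih =>
    rw [pow_succ, un_mul (hP _ (P.pow_mem huP n)) hu, ih]
    push_cast
    ring

theorem un_one_iff (hinj : Function.Injective r) {u : G} (hu : Un (mt r u)) :
    mt r u 0 1 = 0 ↔ u = 1 := by
  constructor
  · intro h
    refine un_ext hinj hu ?_ ?_
    · rw [mt_one]; exact ⟨rfl, rfl, rfl⟩
    · rw [h, mt_one]; rfl
  · rintro rfl
    rw [mt_one]; rfl

/-- **the case of a Sylow subgroup of order `p`** -/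
theorem case_p {p : ℕ} [hp : Fact p.Prime] [Algebra (ZMod p) k] (hp2 : p ≠ 2)
    (hinj : Function.Injective r) (hdt : ∀ g, (mt r g).det ≠ 0) (hc : Coc r c)
    {P : Subgroup G} (hP : ∀ u ∈ P, Un (mt r u)) (hcard : Nat.card P = p)
    (hN : ∀ a : ZMod p, a ≠ 0 → ∃ n, (mt r n).det = algebraMap (ZMod p) k a ∧ mt r n 1 0 = 0 ∧
      ∀ u ∈ P, n * u * n⁻¹ ∈ P) :
    CobOn r (P : Set G) c := by
  have hchar : CharP k p := charP_of_injective_algebraMap (algebraMap (ZMod p) k).injective p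
  have h2 : (2 : k) ≠ 0 := two_ne (p := p) hp2
  have hfin : Finite P := Nat.finite_of_card_ne_zero (by rw [hcard]; exact hp.out.ne_zero)
  obtain ⟨u₀, hu₀⟩ : ∃ u : P, u ≠ 1 := by
    have : Nontrivial P := by
      rw [← Finite.one_lt_card_iff_nontrivial (α := P), hcard]
      exact hp.out.one_lt
    exact exists_ne 1
  have h0 : mt r u₀.1 0 1 ≠ 0 := by
    intro h
    exact hu₀ (Subtype.ext ((un_one_iff hinj (hP _ u₀.2)).mp h))
  have hgen : ∀ v ∈ P, ∃ n : ℕ, v = u₀.1 ^ n := by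
    intro v hv
    have h1 : (⟨v, hv⟩ : P) ∈ Subgroup.zpowers u₀ :=
      mem_zpowers_of_prime_card (p := p) hcard hu₀
    rw [← mem_powers_iff_mem_zpowers] at h1
    obtain ⟨n, hn⟩ := h1
    exact ⟨n, (congrArg Subtype.val hn).symm⟩
  obtain ⟨δ, hδ⟩ := hc.delta hinj hP u₀.2 h0
  have hδ0 : δ = 0 := by
    by_contra hne
    obtain ⟨a, ha⟩ := FiniteField.exists_nonsquare (F := ZMod p)
      (by rw [ZMod.ringChar_zmod_n]; exact hp2)
    have ha0 : a ≠ 0 := by
      rintro rfl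
      exact ha ⟨0, by ring⟩
    obtain ⟨n, hn1, hn2, hn3⟩ := hN a ha0
    have e1 := hc.delta_ne hdt hP u₀.2 h0 hδ hne hn2 (hn3 _ u₀.2)
    obtain ⟨j, hj⟩ := hgen _ (hn3 _ u₀.2)
    obtain ⟨-, e2⟩ := conj_tri hdt hn2 (hP _ u₀.2)
    rw [hj, un_zpow (hP _ u₀.2) hP u₀.2] at e2
    have e3 : (j : k) * mt r n 1 1 = mt r n 0 0 := by
      apply mul_right_cancel₀ h0
      linear_combination e2
    rw [Matrix.det_fin_two, hn2, mul_zero, sub_zero] at hn1
    have ht2 : mt r n 1 1 ≠ 0 := by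
      intro h
      have := hdt n
      rw [Matrix.det_fin_two, hn2, mul_zero, sub_zero, h, mul_zero] at this
      exact this rfl
    have e4 : (j : k) = mt r n 1 1 ^ 2 := by
      apply mul_right_cancel₀ ht2
      rw [e3, e1]; ring
    apply ha
    refine ⟨(j : ZMod p), ?_⟩
    apply (algebraMap (ZMod p) k).injective
    rw [← hn1, map_mul, map_natCast, e1, e4]
    ring
  refine cobOn_of hc h2 hinj hP u₀.2 h0 (fun v hv => by rw [hδ v hv, hδ0, zero_mul]) ?_
  intro c' hc' h10 h00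
  refine ⟨c' u₀.1 0 1 / mt r u₀.1 0 1, fun v hv => ?_⟩
  obtain ⟨n, rfl⟩ := hgen v hv
  rw [un_zpow (hP _ u₀.2) hP u₀.2]
  have : c' (u₀.1 ^ n) 0 1 = n * c' u₀.1 0 1 := by
    clear hv
    induction n with
    | zero => rw [pow_zero, hc'.one, Nat.cast_zero, zero_mul]; rfl
    | succ n ih =>
      rw [pow_succ, (hc'.un (hP _ (P.pow_mem u₀.2 n))).2.2, ih, h10 _ u₀.2, h00 _ u₀.2]
      push_cast
      ring
  rw [this]
  field_simp

/-- **the case of a big Sylow subgroup** -/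
theorem case_big {p : ℕ} [hp : Fact p.Prime] [CharP k p] [Finite k] (hp2 : p ≠ 2)
    (hinj : Function.Injective r) (hdt : ∀ g, (mt r g).det ≠ 0) (hc : Coc r c)
    {P : Subgroup G} [Finite P] (hP : ∀ u ∈ P, Un (mt r u)) (hcard : 5 < Nat.card P)
    {N : Set G} (hN1 : ∀ n ∈ N, (mt r n).det = 1 ∧ mt r n 1 0 = 0 ∧ ∀ u ∈ P, n * u * n⁻¹ ∈ P)
    (hN2 : Nat.card P - 1 ≤ 2 * Nat.card {x : k | ∃ n ∈ N, x = mt r n 0 0 ^ 2}) :
    CobOn r (P : Set G) c := by
  classical
  have h2 : (2 : k) ≠ 0 := two_ne (p := p) hp2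
  obtain ⟨u₀, hu₀⟩ : ∃ u : P, u ≠ 1 := by
    have : Nontrivial P := by
      rw [← Finite.one_lt_card_iff_nontrivial (α := P)]
      omega
    exact exists_ne 1
  have h0 : mt r u₀.1 0 1 ≠ 0 := by
    intro h
    exact hu₀ (Subtype.ext ((un_one_iff hinj (hP _ u₀.2)).mp h))
  obtain ⟨δ, hδ⟩ := hc.delta hinj hP u₀.2 h0
  have hδ0 : δ = 0 := by
    by_contra hne
    have hsub : {x : k | ∃ n ∈ N, x = mt r n 0 0 ^ 2} ⊆ {1, -1} := by
      rintro x ⟨n, hn, rfl⟩
      obtain ⟨a1, a2, a3⟩ := hN1 n hn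
      have e1 := hc.delta_ne hdt hP u₀.2 h0 hδ hne a2 (a3 _ u₀.2)
      rw [Matrix.det_fin_two, a2, mul_zero, sub_zero] at a1
      have e2 : (mt r n 0 0 ^ 2 - 1) * (mt r n 0 0 ^ 2 + 1) = 0 := by
        have e3 : mt r n 0 0 ^ 4 = 1 := by
          calc mt r n 0 0 ^ 4 = mt r n 0 0 ^ 3 * mt r n 0 0 := by ring
            _ = mt r n 0 0 ^ 3 * mt r n 1 1 ^ 3 := by rw [← e1]
            _ = (mt r n 0 0 * mt r n 1 1) ^ 3 := by ring
            _ = 1 := by rw [a1, one_pow]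
        linear_combination e3
      rcases mul_eq_zero.mp e2 with h | h
      · left; linear_combination h
      · right
        rw [Set.mem_singleton_iff]
        linear_combination h
    have h3 : Nat.card {x : k | ∃ n ∈ N, x = mt r n 0 0 ^ 2} ≤ 2 := by
      rw [Nat.card_coe_set_eq]
      exact (Set.ncard_le_ncard hsub (Set.toFinite _)).trans (Set.ncard_insert_le _ _ |>.trans
        (by rw [Set.ncard_singleton]))
    omega
  refine cobOn_of hc h2 hinj hP u₀.2 h0 (fun v hv => by rw [hδ v hv, hδ0, zero_mul]) ?_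
  intro c' hc' h10 h00
  refine ⟨c' u₀.1 0 1 / mt r u₀.1 0 1, ?_⟩
  -- additivity
  have hadd : ∀ u ∈ P, ∀ v ∈ P, c' (u * v) 0 1 = c' u 0 1 + c' v 0 1 := by
    intro u hu v hv
    rw [(hc'.un (hP _ hu)).2.2, h10 _ hv, h00 _ hv]
    ring
  -- equivariance
  have hequi : ∀ n ∈ N, ∀ u ∈ P, mt r (n * u * n⁻¹) 0 1 = mt r n 0 0 ^ 2 * mt r u 0 1 ∧
      c' (n * u * n⁻¹) 0 1 = mt r n 0 0 ^ 2 * c' u 0 1 := by
    intro n hn
    obtain ⟨a1, a2, a3⟩ := hN1 n hn
    have hd := a1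
    rw [Matrix.det_fin_two, a2, mul_zero, sub_zero] at hd
    have hx : ∀ u ∈ P, mt r (n * u * n⁻¹) 0 1 = mt r n 0 0 ^ 2 * mt r u 0 1 := by
      intro u hu
      obtain ⟨-, e2⟩ := conj_tri hdt a2 (hP u hu)
      have ht1 : mt r n 1 1 ≠ 0 := fun h => by
        rw [h, mul_zero] at hd
        exact zero_ne_one hd
      apply mul_right_cancel₀ ht1
      rw [e2]
      linear_combination (-(mt r n 0 0 * mt r u 0 1)) * hd
    have hn10 : c' n 1 0 = 0 := by
      exact hc'.conj_beta hdt a2 (hP _ u₀.2) h0 (h10 _ u₀.2) (h00 _ u₀.2) (h00 _ (a3 _ u₀.2))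
    have hy : ∀ u ∈ P, c' (n * u * n⁻¹) 0 1 = mt r n 0 0 ^ 2 * (c' u 0 1 +
        2 * mt r u 0 1 * c' n 0 0) := by
      intro u hu
      rw [hc'.conj_beta' hdt a2 (hP u hu) (h10 _ hu) (h00 _ hu) hn10, hx u hu]
      ring
    -- iterate
    have hpow : ∀ m : ℕ, n ^ m * u₀.1 * (n ^ m)⁻¹ ∈ P ∧
        mt r (n ^ m * u₀.1 * (n ^ m)⁻¹) 0 1 = (mt r n 0 0 ^ 2) ^ m * mt r u₀.1 0 1 ∧
        c' (n ^ m * u₀.1 * (n ^ m)⁻¹) 0 1 = (mt r n 0 0 ^ 2) ^ m *
          (c' u₀.1 0 1 + 2 * m * mt r u₀.1 0 1 * c' n 0 0) := by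
      intro m
      induction m with
      | zero =>
        simp only [pow_zero, one_mul, inv_one, mul_one, Nat.cast_zero, mul_zero, zero_mul,
          add_zero, and_true]
        exact u₀.2
      | succ m ih =>
        obtain ⟨i1, i2, i3⟩ := ih
        have e : n ^ (m + 1) * u₀.1 * (n ^ (m + 1))⁻¹ =
            n * (n ^ m * u₀.1 * (n ^ m)⁻¹) * n⁻¹ := by
          rw [pow_succ']; group
        rw [e]
        refine ⟨a3 _ i1, ?_, ?_⟩
        · rw [hx _ i1, i2]; ring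
        · rw [hy _ i1, i3, i2]; push_cast; ring
    have hsc : c' n 0 0 = 0 := by
      have := Fintype.ofFinite k
      obtain ⟨j1, j2, j3⟩ := hpow (Fintype.card k - 1)
      have ht0 : mt r n 0 0 ^ 2 ≠ 0 := by
        apply pow_ne_zero
        intro h
        rw [h, zero_mul] at hd
        exact zero_ne_one hd
      have hcast : ((Fintype.card k - 1 : ℕ) : k) = -1 := by
        rw [Nat.cast_sub Fintype.card_pos, FiniteField.cast_card_eq_zero]
        ring
      rw [FiniteField.pow_card_sub_one_eq_one _ ht0, one_mul] at j2 j3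
      have e : n ^ (Fintype.card k - 1) * u₀.1 * (n ^ (Fintype.card k - 1))⁻¹ = u₀.1 :=
        un_ext hinj (hP _ j1) (hP _ u₀.2) j2
      rw [e, hcast] at j3
      have h5 : 2 * mt r u₀.1 0 1 * c' n 0 0 = 0 := by linear_combination j3
      exact (mul_eq_zero.mp h5).resolve_left (mul_ne_zero h2 h0)
    intro u hu
    refine ⟨hx u hu, ?_⟩
    rw [hy u hu, hsc]
    ring
  -- the ring of multipliers
  let R : Subring k :=
    { carrier := {y | ∀ u ∈ P, ∃ v ∈ P, mt r v 0 1 = y * mt r u 0 1 ∧ c' v 0 1 = y * c' u 0 1}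
      mul_mem' := by
        intro y z hy hz u hu
        obtain ⟨v, hv, v1, v2⟩ := hz u hu
        obtain ⟨w, hw, w1, w2⟩ := hy v hv
        exact ⟨w, hw, by rw [w1, v1]; ring, by rw [w2, v2]; ring⟩
      one_mem' := fun u hu => ⟨u, hu, by rw [one_mul], by rw [one_mul]⟩
      add_mem' := by
        intro y z hy hz u hu
        obtain ⟨v, hv, v1, v2⟩ := hy u hu
        obtain ⟨w, hw, w1, w2⟩ := hz u hu
        refine ⟨v * w, P.mul_mem hv hw, ?_, ?_⟩
        · rw [un_mul (hP _ hv) (hP _ hw), v1, w1]; ring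
        · rw [hadd _ hv _ hw, v2, w2]; ring
      zero_mem' := fun u hu => ⟨1, P.one_mem, by rw [zero_mul, mt_one]; rfl, by
        rw [zero_mul, hc'.one]; rfl⟩
      neg_mem' := by
        intro y hy u hu
        obtain ⟨v, hv, v1, v2⟩ := hy u hu
        refine ⟨v⁻¹, P.inv_mem hv, ?_, ?_⟩
        · have e := un_mul (hP _ hv) (hP _ (P.inv_mem hv))
          rw [mul_inv_cancel, mt_one, v1] at e
          have e' : (1 : Matrix (Fin 2) (Fin 2) k) 0 1 = 0 := rfl
          rw [e'] at e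
          linear_combination -e
        · have e := hadd _ hv _ (P.inv_mem hv)
          rw [mul_inv_cancel, hc'.one, v2, Matrix.zero_apply] at e
          linear_combination -e }
  have hR : ∀ y : k, y ∈ R ↔ ∀ u ∈ P, ∃ v ∈ P, mt r v 0 1 = y * mt r u 0 1 ∧
      c' v 0 1 = y * c' u 0 1 := fun y => Iff.rfl
  have hΛR : {x : k | ∃ n ∈ N, x = mt r n 0 0 ^ 2} ⊆ (R : Set k) \ {0} := by
    rintro x ⟨n, hn, rfl⟩
    refine ⟨fun u hu => ⟨n * u * n⁻¹, (hN1 n hn).2.2 u hu, hequi n hn u hu⟩, ?_⟩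
    rw [Set.mem_singleton_iff]
    apply pow_ne_zero
    intro h
    have hd := (hN1 n hn).1
    rw [Matrix.det_fin_two, (hN1 n hn).2.1, mul_zero, sub_zero, h, zero_mul] at hd
    exact zero_ne_one hd
  have hcR : Nat.card {x : k | ∃ n ∈ N, x = mt r n 0 0 ^ 2} + 1 ≤ Nat.card R := by
    have h3 := Set.ncard_le_ncard hΛR (Set.toFinite _)
    rw [Set.ncard_diff_singleton_of_mem (show (0 : k) ∈ (R : Set k) from R.zero_mem)] at h3
    have h4 : 0 < (R : Set k).ncard := by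
      rw [Set.ncard_pos (Set.toFinite _)]
      exact ⟨0, R.zero_mem⟩
    have h5 : Nat.card R = (R : Set k).ncard := rfl
    rw [Nat.card_coe_set_eq, h5]
    omega
  have hinvR : ∀ y ∈ R, y ≠ 0 → y⁻¹ ∈ R := by
    intro y hy hy0
    have := Fintype.ofFinite k
    have h3 : y⁻¹ = y ^ (Fintype.card k - 2) := by
      have h4 := FiniteField.pow_card_sub_one_eq_one y hy0
      have h5 : Fintype.card k - 1 = (Fintype.card k - 2) + 1 := by
        have := Fintype.one_lt_card (α := k)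
        omega
      rw [h5, pow_succ] at h4
      exact (eq_inv_of_mul_eq_one_left h4).symm
    rw [h3]
    exact R.pow_mem hy _
  -- one-dimensionality
  have hdim : ∀ w ∈ P, ∃ y ∈ R, mt r w 0 1 = y * mt r u₀.1 0 1 := by
    intro w hw
    by_contra hcon
    push Not at hcon
    have key : ∀ y z : R, ∃ v : P, mt r v.1 0 1 = y.1 * mt r u₀.1 0 1 + z.1 * mt r w 0 1 := by
      intro y z
      obtain ⟨v, hv, v1, -⟩ := (hR _).mp y.2 _ u₀.2
      obtain ⟨v', hv', v1', -⟩ := (hR _).mp z.2 _ hw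
      exact ⟨⟨v * v', P.mul_mem hv hv'⟩, by rw [un_mul (hP _ hv) (hP _ hv'), v1, v1']⟩
    choose F hF using key
    have hFinj : Function.Injective (fun x : R × R => F x.1 x.2) := by
      rintro ⟨y, z⟩ ⟨y', z'⟩ h
      have h3 : mt r (F y z).1 0 1 = mt r (F y' z').1 0 1 := by
        rw [show F y z = F y' z' from h]
      rw [hF, hF] at h3
      have hz : z = z' := by
        by_contra hne
        have hne' : (z' - z : R) ≠ 0 := fun h => hne (sub_eq_zero.mp h).symm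
        have hne2 : (z'.1 - z.1 : k) ≠ 0 := fun h => hne' (Subtype.ext h)
        refine hcon ((z'.1 - z.1)⁻¹ * (y.1 - y'.1)) ?_ ?_
        · exact R.mul_mem (hinvR _ (R.sub_mem z'.2 z.2) hne2) (R.sub_mem y.2 y'.2)
        · rw [mul_assoc, eq_inv_mul_iff_mul_eq₀ hne2]
          linear_combination -h3
      subst hz
      have hy : y.1 = y'.1 := by
        apply mul_right_cancel₀ h0
        linear_combination h3
      rw [Subtype.ext hy]
    have h3 := Nat.card_le_card_of_injective _ hFinj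
    rw [Nat.card_prod] at h3
    set e := Nat.card {x : k | ∃ n ∈ N, x = mt r n 0 0 ^ 2} with he
    have h4 : (e + 1) * (e + 1) ≤ Nat.card P := (Nat.mul_le_mul hcR hcR).trans h3
    have h5 : Nat.card P ≤ 2 * e + 1 := by omega
    have h6 : 0 < e := by omega
    nlinarith
  intro w hw
  obtain ⟨y, hy, hy1⟩ := hdim w hw
  obtain ⟨v, hv, v1, v2⟩ := (hR y).mp hy _ u₀.2
  have hvw : v = w := un_ext hinj (hP _ hv) (hP _ hw) (by rw [v1, hy1])
  rw [← hvw, v2, v1]
  field_simp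

end Fermat.Agent.AdH1
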