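import Fermat.Agent.AdH1.Unip

/-!
# Cocycles with values in the twisted adjoint representation
-/

set_option autoImplicit false
set_option maxHeartbeats 400000

noncomputable section

namespace Fermat.Agent.AdH1

open Matrix

variable {k : Type*} [Field k] {G : Type*} [Group G] (r : G →* GL (Fin 2) k)

/-- the twisted adjoint action -/
def ac (g : G) (X : Matrix (Fin 2) (Fin 2) k) : Matrix (Fin 2) (Fin 2) k :=
  mt r g * X * (mt r g).adjugate

theorem adj_eq (g : G) : (mt r g).adjugate = (mt r g).det • mt r g⁻¹ := by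
  have h1 : mt r g⁻¹ * (mt r g * (mt r g).adjugate) = (mt r g).adjugate := by
    rw [← mul_assoc, mt_inv_mul, one_mul]
  rw [← h1, Matrix.mul_adjugate, Matrix.mul_smul, mul_one]

theorem ac_eq (g : G) (X : Matrix (Fin 2) (Fin 2) k) :
    ac r g X = (mt r g).det • (mt r g * X * mt r g⁻¹) := by
  rw [ac, adj_eq, Matrix.mul_smul]

theorem ac_add (g : G) (X Y : Matrix (Fin 2) (Fin 2) k) :
    ac r g (X + Y) = ac r g X + ac r g Y := by
  rw [ac, ac, ac, mul_add, add_mul]

theorem ac_neg (g : G) (X : Matrix (Fin 2) (Fin 2) k) : ac r g (-X) = -ac r g X := by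
  rw [ac, ac, mul_neg, neg_mul]

theorem ac_sub (g : G) (X Y : Matrix (Fin 2) (Fin 2) k) :
    ac r g (X - Y) = ac r g X - ac r g Y := by
  rw [ac, ac, ac, mul_sub, sub_mul]

theorem ac_zero (g : G) : ac r g 0 = 0 := by
  rw [ac, mul_zero, zero_mul]

theorem ac_smul (g : G) (a : k) (X : Matrix (Fin 2) (Fin 2) k) :
    ac r g (a • X) = a • ac r g X := by
  rw [ac, ac, Matrix.mul_smul, Matrix.smul_mul]

theorem ac_sum {ι : Type*} (s : Finset ι) (g : G) (f : ι → Matrix (Fin 2) (Fin 2) k) :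
    ac r g (∑ i ∈ s, f i) = ∑ i ∈ s, ac r g (f i) := by
  rw [ac, Finset.mul_sum, Finset.sum_mul]
  rfl

theorem ac_one (X : Matrix (Fin 2) (Fin 2) k) : ac r 1 X = X := by
  rw [ac, mt_one, Matrix.adjugate_one, one_mul, mul_one]

theorem ac_mul (g h : G) (X : Matrix (Fin 2) (Fin 2) k) :
    ac r (g * h) X = ac r g (ac r h X) := by
  rw [ac, ac, ac, mt_mul, Matrix.adjugate_mul_distrib]
  simp only [mul_assoc]

theorem trace_ac (g : G) (X : Matrix (Fin 2) (Fin 2) k) :
    (ac r g X).trace = (mt r g).det * X.trace := by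
  rw [ac, Matrix.trace_mul_comm, ← mul_assoc, Matrix.adjugate_mul, Matrix.smul_mul, one_mul,
    Matrix.trace_smul, smul_eq_mul]

/-- cocycles -/
structure Coc (c : G → Matrix (Fin 2) (Fin 2) k) : Prop where
  mul : ∀ g h, c (g * h) = c g + ac r g (c h)
  tr : ∀ g, (c g).trace = 0

/-- coboundaries on a subset -/
def CobOn (S : Set G) (c : G → Matrix (Fin 2) (Fin 2) k) : Prop :=
  ∃ X : Matrix (Fin 2) (Fin 2) k, X.trace = 0 ∧ ∀ g ∈ S, c g = ac r g X - X

variable {r} {c : G → Matrix (Fin 2) (Fin 2) k}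

theorem Coc.one (hc : Coc r c) : c 1 = 0 := by
  have := hc.mul 1 1
  rw [mul_one, ac_one, left_eq_add] at this
  exact this

theorem Coc.conj (hc : Coc r c) (n u : G) :
    c (n * u * n⁻¹) = ac r n (c u) - (ac r (n * u * n⁻¹) (c n) - c n) := by
  have h1 := hc.mul (n * u * n⁻¹) n
  rw [inv_mul_cancel_right] at h1
  have h2 := hc.mul n u
  rw [h2] at h1
  rw [eq_sub_iff_add_eq, ← sub_eq_zero]
  have h3 : c (n * u * n⁻¹) + ac r (n * u * n⁻¹) (c n) - (c n + ac r n (c u)) = 0 := by
    rw [← h1, sub_self]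
  calc _ = c (n * u * n⁻¹) + ac r (n * u * n⁻¹) (c n) - (c n + ac r n (c u)) := by abel
    _ = 0 := h3

theorem Coc.sub_cob (hc : Coc r c) {X : Matrix (Fin 2) (Fin 2) k} (hX : X.trace = 0) :
    Coc r (fun g => c g - (ac r g X - X)) where
  mul g h := by
    rw [hc.mul, ac_mul, ac_sub, ac_sub]
    abel
  tr g := by
    rw [Matrix.trace_sub, Matrix.trace_sub, hc.tr, trace_ac, hX, mul_zero]
    ring

theorem CobOn.of_sub {S : Set G} {X : Matrix (Fin 2) (Fin 2) k} (hX : X.trace = 0)
    (h : CobOn r S (fun g => c g - (ac r g X - X))) : CobOn r S c := by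
  obtain ⟨Y, hY, h1⟩ := h
  refine ⟨X + Y, by rw [Matrix.trace_add, hX, hY, add_zero], fun g hg => ?_⟩
  have h2 := h1 g hg
  rw [sub_eq_iff_eq_add] at h2
  rw [h2, ac_add]
  abel

/-- a cocycle which is a coboundary on a Sylow subgroup is a coboundary -/
theorem cob_of_sylow {p : ℕ} [hp : Fact p.Prime] [CharP k p] [Finite G] (hc : Coc r c)
    (P : Sylow p G) (h : CobOn r (P : Set G) c) : CobOn r Set.univ c := by
  classical
  obtain ⟨X, hX, h1⟩ := h
  apply CobOn.of_sub hX
  have hc' := hc.sub_cob hX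
  set d : G → Matrix (Fin 2) (Fin 2) k := fun g => c g - (ac r g X - X) with hd
  have hdP : ∀ u ∈ P, d u = 0 := fun u hu => by
    rw [hd]
    change c u - (ac r u X - X) = 0
    rw [h1 u hu, sub_self]
  have := Fintype.ofFinite (G ⧸ (P : Subgroup G))
  have hwd : ∀ g u : G, u ∈ P → d (g * u) = d g := by
    intro g u hu
    rw [hc'.mul, hdP u hu, ac_zero, add_zero]
  let f : G ⧸ (P : Subgroup G) → Matrix (Fin 2) (Fin 2) k := Quotient.lift d (by
    intro a b hab
    have h2 : a⁻¹ * b ∈ (P : Subgroup G) := QuotientGroup.leftRel_apply.mp hab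
    have h3 := hwd a (a⁻¹ * b) h2
    rw [mul_inv_cancel_left] at h3
    exact h3.symm)
  have hf : ∀ g : G, f (QuotientGroup.mk g) = d g := fun g => rfl
  set m := Nat.card (G ⧸ (P : Subgroup G)) with hm
  have hm0 : (m : k) ≠ 0 := by
    rw [Ne, CharP.cast_eq_zero_iff k p]
    have h2 : m = (P : Subgroup G).index := rfl
    rw [h2]
    exact P.not_dvd_index
  set Y := ∑ x, f x with hY
  have hac : ∀ g x, ac r g (f x) = f (g • x) - d g := by
    intro g x
    induction x using QuotientGroup.induction_on with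
    | H h =>
      have h2 : g • (QuotientGroup.mk h : G ⧸ (P : Subgroup G)) = QuotientGroup.mk (g * h) := rfl
      rw [h2, hf, hf, hc'.mul]
      abel
  have hYac : ∀ g, ac r g Y = Y - m • d g := by
    intro g
    rw [hY, ac_sum, Finset.sum_congr rfl fun x _ => hac g x, Finset.sum_sub_distrib,
      Finset.sum_const, Finset.card_univ, ← Nat.card_eq_fintype_card]
    congr 1
    exact Equiv.sum_comp (MulAction.toPerm g) f
  have htrY : Y.trace = 0 := by
    rw [hY, Matrix.trace_sum]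
    refine Finset.sum_eq_zero fun x _ => ?_
    induction x using QuotientGroup.induction_on with
    | H h => exact hc'.tr h
  refine ⟨-((m : k)⁻¹ • Y), by rw [Matrix.trace_neg, Matrix.trace_smul, htrY, smul_zero, neg_zero],
    fun g _ => ?_⟩
  rw [ac_neg, ac_smul, hYac, smul_sub, ← Nat.cast_smul_eq_nsmul k, smul_smul,
    inv_mul_cancel₀ hm0, one_smul]
  abel

end Fermat.Agent.AdH1
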