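import Mathlib

/-!
# Counting orbits: an abstract version of Dickson's argument
-/

set_option autoImplicit false

noncomputable section

namespace Fermat.Agent.AdH1

open MulAction

/-- arithmetic at the end of the orbit count -/
theorem arith_of_dvd {q e f n : ℕ} (hq : 3 ≤ q) (he : 0 < e) (hf : 0 < f) (hn : n = 1 + f * q)
    (h : (2 + n * (q - 2)) ∣ q * e * n) : q - 1 ≤ 2 * e := by
  obtain ⟨r, rfl⟩ : ∃ r, q = r + 2 := ⟨q - 2, by omega⟩
  have hr : 1 ≤ r := by omega
  have e1 : r + 2 - 2 = r := by omega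
  rw [e1] at h
  have e2 : 2 + n * r = (r + 2) * (1 + f * r) := by rw [hn]; ring
  rw [e2, mul_assoc (r + 2) e n] at h
  have h1 : (1 + f * r) ∣ e * n := Nat.dvd_of_mul_dvd_mul_left (by omega) h
  have e3 : e * n = e * (1 + f * r) + 2 * e * f := by rw [hn]; ring
  rw [e3] at h1
  have h2 : (1 + f * r) ∣ 2 * e * f := (Nat.dvd_add_right (Dvd.intro_left e rfl)).mp h1
  have hcop : Nat.Coprime (1 + f * r) f := by simp [Nat.coprime_add_mul_left_left]
  have h3 : (1 + f * r) ∣ 2 * e := hcop.dvd_of_dvd_mul_right h2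
  have h4 := Nat.le_of_dvd (by omega) h3
  have h5 : r ≤ f * r := Nat.le_mul_of_pos_left r hf
  omega

variable {G Ω : Type*} [Group G] [MulAction G Ω]

/-- **the orbit count**: Burnside's lemma for a group whose nontrivial elements have one or two
fixed points -/
theorem orbit_count [Finite G] [Finite Ω] {Z : Subgroup G} {Par : Set G} {q : ℕ} (hq : 2 < q)
    (hZ : ∀ z ∈ Z, ∀ ω : Ω, z • ω = ω)
    (h2 : ∀ g, g ∉ Z → g ∉ Par → Nat.card (fixedBy Ω g) = 2)
    (h1 : ∀ g ∈ Par, g ∉ Z ∧ Nat.card (fixedBy Ω g) = 1)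
    (h3 : ∀ ω : Ω, ∃ g, g ∉ Z ∧ g • ω = ω) (o : Ω)
    (hPar : Nat.card Par = Nat.card Z * (Nat.card (orbit G o) * (q - 1))) :
    ∃ g, Nat.card G = Nat.card Z * g ∧ (2 + Nat.card (orbit G o) * (q - 2)) ∣ g := by
  classical
  have := Fintype.ofFinite G
  have := Fintype.ofFinite Ω
  set z := Nat.card Z with hz
  have hzpos : 0 < z := Nat.card_pos
  obtain ⟨g, hg⟩ := Subgroup.card_subgroup_dvd_card Z
  refine ⟨g, hg, ?_⟩
  set n := Nat.card (orbit G o) with hn
  set W := Nat.card Ω with hW
  set π := Quotient (orbitRel G Ω) with hπ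
  have hfπ : Fintype π := inferInstance
  -- Burnside
  have hB : Nat.card π * Nat.card G = ∑ x : G, Nat.card (fixedBy Ω x) := by
    rw [Nat.card_eq_fintype_card, Nat.card_eq_fintype_card,
      ← sum_card_fixedBy_eq_card_orbits_mul_card_group]
    exact Finset.sum_congr rfl fun x _ => (Nat.card_eq_fintype_card).symm
  have hsplit : ∀ x : G, Nat.card (fixedBy Ω x) + (if x ∈ Par then 1 else 0) =
      if x ∈ Z then W else 2 := by
    intro x
    by_cases hxZ : x ∈ Z
    · have hxP : x ∉ Par := fun h => (h1 x h).1 hxZ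
      rw [if_neg hxP, if_pos hxZ, add_zero]
      have : fixedBy Ω x = Set.univ := Set.eq_univ_of_forall fun ω => hZ x hxZ ω
      rw [this, Nat.card_coe_set_eq, Set.ncard_univ]
    · rw [if_neg hxZ]
      by_cases hxP : x ∈ Par
      · rw [if_pos hxP, (h1 x hxP).2]
      · rw [if_neg hxP, h2 x hxZ hxP]
  have hsum : Nat.card π * Nat.card G + Nat.card Par = z * W + 2 * (Nat.card G - z) := by
    have e1 : ∑ x : G, (Nat.card (fixedBy Ω x) + (if x ∈ Par then 1 else 0)) =
        ∑ x : G, (if x ∈ Z then W else 2) := Finset.sum_congr rfl fun x _ => hsplit x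
    rw [Finset.sum_add_distrib, ← hB] at e1
    have e2 : ∑ x : G, (if x ∈ Par then 1 else 0) = Nat.card Par := by
      rw [Finset.sum_boole, Nat.cast_id, Nat.card_coe_set_eq,
        Set.ncard_eq_toFinset_card' Par]
      congr 1
      ext x
      simp
    have e3 : ∑ x : G, (if x ∈ Z then W else 2) = z * W + 2 * (Nat.card G - z) := by
      rw [Finset.sum_ite, Finset.sum_const, Finset.sum_const, smul_eq_mul, smul_eq_mul]
      have e4 : (Finset.univ.filter fun x : G => x ∈ Z).card = z := by
        rw [hz, Nat.card_eq_fintype_card, Fintype.card_subtype]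
      have e5 : (Finset.univ.filter fun x : G => x ∉ Z).card = Nat.card G - z := by
        have e6 := Finset.card_filter_add_card_filter_not (s := (Finset.univ : Finset G))
          (fun x : G => x ∈ Z)
        rw [e4, Finset.card_univ, ← Nat.card_eq_fintype_card] at e6
        omega
      rw [e4, e5, mul_comm (Nat.card G - z) 2]
    rw [e2, e3] at e1
    exact e1
  have hgpos : 0 < g := by
    rcases Nat.eq_zero_or_pos g with h | h
    · rw [h, mul_zero] at hg
      exact absurd hg Nat.card_pos.ne'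
    · exact h
  set m := Nat.card π with hm
  have hmain : m * g + n * (q - 1) + 2 = W + 2 * g := by
    have e0 : Nat.card G - z = z * (g - 1) := by
      rw [hg, Nat.mul_sub, mul_one]
    rw [hPar, e0] at hsum
    rw [hg] at hsum
    have e1 : z * (m * g + n * (q - 1)) = z * (W + 2 * (g - 1)) := by
      calc z * (m * g + n * (q - 1)) = m * (z * g) + z * (n * (q - 1)) := by ring
        _ = z * W + 2 * (z * (g - 1)) := hsum
        _ = z * (W + 2 * (g - 1)) := by ring
    have e2 := Nat.eq_of_mul_eq_mul_left hzpos e1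
    omega
  -- sizes of the orbits
  have horb : ∀ ω : Ω, ∃ d, 2 ≤ d ∧ Nat.card (orbit G ω) * d = g := by
    intro ω
    have hle : Z ≤ stabilizer G ω := fun x hx => hZ x hx ω
    obtain ⟨d, hd⟩ := Subgroup.card_dvd_of_le hle
    refine ⟨d, ?_, ?_⟩
    · rcases Nat.lt_or_ge d 2 with h | h
      · exfalso
        obtain ⟨x, hx1, hx2⟩ := h3 ω
        have hlt : Z < stabilizer G ω := lt_of_le_of_ne hle fun h => hx1 (h ▸ hx2)
        have hc : Nat.card Z < Nat.card (stabilizer G ω) := by
          exact Set.ncard_lt_ncard (s := (Z : Set G)) (t := (stabilizer G ω : Set G)) hlt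
            (Set.toFinite _)
        rw [hd] at hc
        interval_cases d
        · omega
        · omega
      · exact h
    · have e1 := card_orbit_mul_card_stabilizer_eq_card_group G ω
      rw [← Nat.card_eq_fintype_card, ← Nat.card_eq_fintype_card, ← Nat.card_eq_fintype_card] at e1
      rw [hd, hg] at e1
      have e2 : z * (Nat.card (orbit G ω) * d) = z * g := by
        rw [← e1]; ring
      exact Nat.eq_of_mul_eq_mul_left hzpos e2
  -- the number of points
  let F : π → ℕ := fun c => Nat.card (orbit G (Quotient.out c))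
  have hF : ∀ ω : Ω, F (Quotient.mk _ ω) = Nat.card (orbit G ω) := by
    intro ω
    have h : orbit G (Quotient.out (Quotient.mk (orbitRel G Ω) ω)) = orbit G ω := by
      rw [orbit_eq_iff]
      exact Quotient.mk_out (s := orbitRel G Ω) ω
    change Nat.card (orbit G (Quotient.out (Quotient.mk (orbitRel G Ω) ω))) = _
    rw [h]
  have hWsum : W = ∑ c : π, F c := by
    rw [hW, Nat.card_congr (selfEquivSigmaOrbits' G Ω), Nat.card_sigma]
    refine Finset.sum_congr rfl fun c _ => ?_
    induction c using Quotient.inductionOn with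
    | h ω =>
      rw [hF]
      rfl
  have hFd : ∀ c : π, ∃ d, 2 ≤ d ∧ F c * d = g := fun c => horb _
  let c₀ : π := Quotient.mk _ o
  have hF0 : F c₀ = n := hF o
  have hcard : (Finset.univ.erase c₀).card = m - 1 := by
    rw [Finset.card_erase_of_mem (Finset.mem_univ _), Finset.card_univ, hm,
      Nat.card_eq_fintype_card]
  have hWs : W = n + ∑ c ∈ Finset.univ.erase c₀, F c := by
    rw [hWsum, ← Finset.add_sum_erase _ _ (Finset.mem_univ c₀), hF0]
  have hmpos : 0 < m := by
    rw [hm, Nat.card_eq_fintype_card]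
    exact Fintype.card_pos_iff.mpr ⟨c₀⟩
  have hq1 : n * (q - 1) = n + n * (q - 2) := by
    have : q - 1 = 1 + (q - 2) := by omega
    rw [this]; ring
  have hm3 : m < 3 := by
    by_contra hcon
    have h5 : 2 * ∑ c ∈ Finset.univ.erase c₀, F c ≤ (m - 1) * g := by
      rw [Finset.mul_sum, ← hcard]
      calc ∑ c ∈ Finset.univ.erase c₀, 2 * F c ≤ ∑ _c ∈ Finset.univ.erase c₀, g := by
            refine Finset.sum_le_sum fun c _ => ?_
            obtain ⟨d, hd1, hd2⟩ := hFd c
            rw [← hd2, mul_comm 2]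
            exact Nat.mul_le_mul_left _ hd1
        _ = _ := by rw [Finset.sum_const, smul_eq_mul]
    obtain ⟨t, ht⟩ : ∃ t, m = t + 3 := ⟨m - 3, by omega⟩
    rw [ht] at hmain h5
    have e6 : (t + 3 - 1) * g = t * g + 2 * g := by
      have : t + 3 - 1 = t + 2 := by omega
      rw [this]; ring
    rw [e6] at h5
    have e7 : (t + 3) * g = t * g + 3 * g := by ring
    rw [e7, hq1] at hmain
    have e8 : 0 ≤ n * (q - 2) := Nat.zero_le _
    have e9 : 0 ≤ t * g := Nat.zero_le _
    omega
  have hm12 : m = 1 ∨ m = 2 := by omega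
  rcases hm12 with hm1 | hm2
  · have h6 : Finset.univ.erase c₀ = ∅ := by
      rw [← Finset.card_eq_zero, hcard]; omega
    rw [h6, Finset.sum_empty, add_zero] at hWs
    rw [hm1, one_mul, hWs, hq1] at hmain
    have : g = 2 + n * (q - 2) := by omega
    rw [this]
  · have h6 : (Finset.univ.erase c₀).card = 1 := by omega
    obtain ⟨c₁, hc₁⟩ := Finset.card_eq_one.mp h6
    rw [hc₁, Finset.sum_singleton] at hWs
    rw [hm2, hWs, hq1] at hmain
    obtain ⟨d, _, hd2⟩ := hFd c₁
    have : F c₁ = 2 + n * (q - 2) := by omega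
    rw [← this]
    exact ⟨d, hd2.symm⟩

end Fermat.Agent.AdH1
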