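import Fermat.Agent.AdH1.Pts

/-!
# A piece of Dickson's theorem
-/

set_option autoImplicit false
set_option maxHeartbeats 400000

noncomputable section

namespace Fermat.Agent.AdH1

open Matrix OnePoint MulAction

variable {K : Type*} [Field K] {G : Type*} [Group G]

/-- elements of the stabilizer with `(r g 0 0)² = 1` -/
def Ks (r : G →* GL (Fin 2) K) : Set G := {g | mt r g 1 0 = 0 ∧ mt r g 0 0 ^ 2 = 1}

/-- the squares of the upper left entries of the stabilizer -/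
def Lam (r : G →* GL (Fin 2) K) : Set K := {x | ∃ g, mt r g 1 0 = 0 ∧ x = mt r g 0 0 ^ 2}

variable {r : G →* GL (Fin 2) K}

theorem card_Ks [Finite G] {p : ℕ} [hp : Fact p.Prime] [CharP K p] (hp2 : p ≠ 2)
    (hinj : Function.Injective r) (hdet : ∀ g, (mt r g).det = 1) :
    Nat.card (Ks r) = Nat.card (Zs r) * Nat.card (Us r hdet) := by
  classical
  rw [← Nat.card_prod]
  symm
  refine Nat.card_congr (Equiv.ofBijective (fun x => ⟨x.1.1 * x.2.1, ?_, ?_⟩) ⟨?_, ?_⟩)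
  · rw [mt_mul, Matrix.mul_apply, Fin.sum_univ_two, x.1.2.2.1, x.2.2.1]
    ring
  · have hz := x.1.2
    have hu := x.2.2
    have hd := hdet x.1.1
    rw [Matrix.det_fin_two, hz.1, hz.2.1, ← hz.2.2, mul_zero, sub_zero] at hd
    rw [mt_mul, Matrix.mul_apply, Fin.sum_univ_two, hz.1, hu.2]
    linear_combination hd
  · rintro ⟨⟨z, hz⟩, ⟨u, hu⟩⟩ ⟨⟨z', hz'⟩, ⟨u', hu'⟩⟩ h
    have h1 : z * u = z' * u' := congrArg Subtype.val h
    have h2 : z'⁻¹ * z = u' * u⁻¹ := by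
      rw [inv_mul_eq_iff_eq_mul, ← mul_assoc, ← h1, mul_inv_cancel_right]
    have h3 : z'⁻¹ * z = 1 := by
      refine Us_Zs hinj (hdet := hdet) ?_ ((Zs r).mul_mem ((Zs r).inv_mem hz') hz)
      rw [h2]
      exact (Us r hdet).mul_mem hu' ((Us r hdet).inv_mem hu)
    have h4 : z = z' := (inv_mul_eq_one.mp h3).symm
    have h5 : u = u' := by rw [h4] at h1; exact mul_left_cancel h1
    simp only [Prod.mk.injEq, Subtype.mk.injEq]
    exact ⟨h4, h5⟩
  · rintro ⟨g, hg1, hg2⟩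
    obtain ⟨z, hz, u, hu, hgu⟩ := ker_decomp hp2 hinj hdet hg1 hg2
    exact ⟨⟨⟨z, hz⟩, ⟨u, hu⟩⟩, Subtype.ext hgu.symm⟩

/-- `g ↦ (r g 0 0)²` on the stabilizer -/
def phi (r : G →* GL (Fin 2) K) (hdet : ∀ g, (mt r g).det = 1) : St r hdet →* Kˣ :=
  MonoidHom.toHomUnits
    { toFun := fun g => mt r g.1 0 0 ^ 2
      map_one' := by
        change mt r 1 0 0 ^ 2 = 1
        rw [mt_one]
        simp
      map_mul' := fun a b => by
        change mt r (a.1 * b.1) 0 0 ^ 2 = _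
        rw [mt_mul, Matrix.mul_apply, Fin.sum_univ_two, show mt r b.1 1 0 = 0 from b.2]
        ring }

theorem phi_val (hdet : ∀ g, (mt r g).det = 1) (g : St r hdet) :
    ((phi r hdet g : Kˣ) : K) = mt r g.1 0 0 ^ 2 := rfl

theorem card_St [Finite G] {p : ℕ} [hp : Fact p.Prime] [CharP K p] (hp2 : p ≠ 2)
    (hinj : Function.Injective r) (hdet : ∀ g, (mt r g).det = 1) :
    Nat.card (St r hdet) = Nat.card (Zs r) * Nat.card (Us r hdet) * Nat.card (Lam r) := by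
  rw [← Subgroup.card_mul_index (phi r hdet).ker, Subgroup.index_ker,
    ← card_Ks hp2 hinj hdet]
  congr 1
  · refine Nat.card_congr (Equiv.ofBijective (fun g => ⟨g.1.1, g.1.2, ?_⟩) ⟨?_, ?_⟩)
    · have h1 : phi r hdet g.1 = 1 := g.2
      rw [← phi_val hdet g.1, h1, Units.val_one]
    · intro g g' h
      have h1 : g.1.1 = g'.1.1 := congrArg (fun x : Ks r => (x : G)) h
      exact Subtype.ext (Subtype.ext h1)
    · rintro ⟨g, hg1, hg2⟩
      exact ⟨⟨⟨g, hg1⟩, Units.ext hg2⟩, rfl⟩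
  · refine Nat.card_congr (Equiv.ofBijective (fun x => ⟨((x.1 : Kˣ) : K), ?_⟩) ⟨?_, ?_⟩)
    · obtain ⟨g, hg⟩ := x.2
      exact ⟨g.1, g.2, by rw [← hg]; rfl⟩
    · intro x x' h
      have h1 : ((x.1 : Kˣ) : K) = ((x'.1 : Kˣ) : K) := congrArg (fun x : Lam r => (x : K)) h
      exact Subtype.ext (Units.ext h1)
    · rintro ⟨x, g, hg1, hg2⟩
      exact ⟨⟨phi r hdet ⟨g, hg1⟩, ⟨g, hg1⟩, rfl⟩, Subtype.ext hg2.symm⟩

/-- parabolic elements -/
def Pa (r : G →* GL (Fin 2) K) : Set G := {g | ¬ Sc (mt r g) ∧ dsc (mt r g) = 0}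

theorem mem_Ks_iff (hdet : ∀ g, (mt r g).det = 1) {g : G} (hg : mt r g 1 0 = 0) :
    g ∈ Ks r ↔ dsc (mt r g) = 0 := by
  have hdt := hdet g
  rw [Matrix.det_fin_two, hg, mul_zero, sub_zero] at hdt
  have h0 : mt r g 0 0 ≠ 0 := by
    intro h
    rw [h, zero_mul] at hdt
    exact zero_ne_one hdt
  rw [dsc, hg, mul_zero, mul_zero, add_zero, sq_eq_zero_iff, sub_eq_zero]
  constructor
  · rintro ⟨_, h⟩
    calc mt r g 0 0 = mt r g 0 0 * (mt r g 0 0 * mt r g 1 1) := by rw [hdt, mul_one]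
        _ = mt r g 0 0 ^ 2 * mt r g 1 1 := by ring
        _ = mt r g 1 1 := by rw [h, one_mul]
  · intro h
    refine ⟨hg, ?_⟩
    calc mt r g 0 0 ^ 2 = mt r g 0 0 * mt r g 1 1 := by rw [← h]; ring
      _ = 1 := hdt

/-- parabolic elements fixing infinity -/
theorem card_Pa_St [Finite G] {p : ℕ} [hp : Fact p.Prime] [CharP K p] (hp2 : p ≠ 2)
    (hinj : Function.Injective r) (hdet : ∀ g, (mt r g).det = 1) :
    Nat.card {g : G // g ∈ Pa r ∧ mt r g 1 0 = 0} =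
      Nat.card (Zs r) * (Nat.card (Us r hdet) - 1) := by
  rw [Nat.mul_sub, mul_one, ← card_Ks hp2 hinj hdet]
  have h1 : {g : G | g ∈ Pa r ∧ mt r g 1 0 = 0} = Ks r \ (Zs r : Set G) := by
    ext g
    constructor
    · rintro ⟨⟨h1, h2⟩, h3⟩
      exact ⟨(mem_Ks_iff hdet h3).mpr h2, h1⟩
    · rintro ⟨h1, h2⟩
      exact ⟨⟨h2, (mem_Ks_iff hdet h1.1).mp h1⟩, h1.1⟩
  have h2 : (Zs r : Set G) ⊆ Ks r := by
    intro g hg
    rw [mem_Ks_iff hdet hg.2.1, dsc, hg.1, hg.2.1, hg.2.2]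
    ring
  change Nat.card {g : G | g ∈ Pa r ∧ mt r g 1 0 = 0} = _
  rw [h1, Nat.card_coe_set_eq, Set.ncard_diff h2 (Set.toFinite _)]
  rfl

variable [DecidableEq K]

/-- a point fixed by a nonscalar unipotent -/
def Pt.inf {g : G} (hg : ¬ Sc (mt r g)) (h : mt r g 1 0 = 0) : Pt r :=
  ⟨∞, g, hg, fix_infty.mpr h⟩

theorem pa_fix {p : ℕ} [hp : Fact p.Prime] [CharP K p] (hp2 : p ≠ 2) [Finite G]
    (hinj : Function.Injective r) (hdet : ∀ g, (mt r g).det = 1) (P : Sylow p G)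
    (hP : ∀ u ∈ P, mt r u 1 0 = 0) {g : G} (hg : g ∈ Pa r) :
    ∃ h : G, mt r (h⁻¹ * g * h) 1 0 = 0 := by
  obtain ⟨z, hz, u, hgu, hup⟩ := par_decomp hp2 hinj hdet hg.2
  have hpg : IsPGroup p (Subgroup.zpowers u) := by
    rintro ⟨x, hx⟩
    obtain ⟨n, rfl⟩ := Subgroup.mem_zpowers_iff.mp hx
    refine ⟨1, Subtype.ext ?_⟩
    change (u ^ n) ^ p ^ 1 = 1
    rw [pow_one, ← zpow_natCast, ← _root_.zpow_mul, mul_comm, _root_.zpow_mul, zpow_natCast, hup, _root_.one_zpow]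
  obtain ⟨Q, hQ⟩ := hpg.exists_le_sylow
  obtain ⟨h, rfl⟩ := MulAction.exists_smul_eq G P Q
  have hu : u ∈ (h • P : Sylow p G) := hQ (Subgroup.mem_zpowers u)
  have hu2 : h⁻¹ * u * h ∈ P := by
    rw [← SetLike.mem_coe, Sylow.coe_smul, Set.mem_smul_set_iff_inv_smul_mem] at hu
    simpa [MulAut.smul_def, ← map_inv] using hu
  refine ⟨h, ?_⟩
  have e : h⁻¹ * g * h = (h⁻¹ * z * h) * (h⁻¹ * u * h) := by rw [hgu]; group
  have hz2 : mt r (h⁻¹ * z * h) 1 0 = 0 := by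
    have : Sc (mt r (h⁻¹ * z * h)) := by
      have h3 := sc_conj (A := r h⁻¹) (show Sc (mt r z) from hz)
      rw [← mt_conj, inv_inv] at h3
      exact h3
    exact this.2.1
  rw [e]
  exact (St r hdet).mul_mem hz2 (hP _ hu2)

end Fermat.Agent.AdH1
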