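import Fermat.Agent.AdH1.Main

/-!
# Vanishing of `H¹(G, ad⁰(1))`: final form
-/

set_option autoImplicit false
set_option maxHeartbeats 400000

noncomputable section

namespace Fermat.Agent.AdH1

open Matrix

variable {k : Type*} [Field k] {G : Type*} [Group G]
  {r : G →* GL (Fin 2) k} {c : G → Matrix (Fin 2) (Fin 2) k}

theorem exists_fixed {p : ℕ} [hp : Fact p.Prime] [CharP k p] [Finite k] [Finite G]
    (P : Sylow p G) : ∃ v : Fin 2 → k, v ≠ 0 ∧ ∀ u ∈ P, mt r u *ᵥ v = v := by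
  classical
  letI act : MulAction (P : Subgroup G) (Fin 2 → k) :=
    { smul := fun u v => mt r u.1 *ᵥ v
      one_smul := fun v => by
        change mt r 1 *ᵥ v = v
        rw [mt_one, Matrix.one_mulVec]
      mul_smul := fun u w v => by
        change mt r (u.1 * w.1) *ᵥ v = mt r u.1 *ᵥ (mt r w.1 *ᵥ v)
        rw [mt_mul, Matrix.mulVec_mulVec] }
  have hdvd : p ∣ Nat.card (Fin 2 → k) := by
    rw [Nat.card_fun, Nat.card_eq_fintype_card (α := Fin 2), Fintype.card_fin]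
    have h1 : p ∣ Nat.card k := by
      have := Fintype.ofFinite k
      rw [Nat.card_eq_fintype_card, ← CharP.cast_eq_zero_iff k p]
      exact FiniteField.cast_card_eq_zero k
    exact dvd_pow h1 (by norm_num)
  obtain ⟨v, hv, hv0⟩ := P.isPGroup'.exists_fixed_point_of_prime_dvd_card_of_fixed_point
    (Fin 2 → k) hdvd (a := 0) (fun u => by
      change mt r u.1 *ᵥ 0 = 0
      rw [Matrix.mulVec_zero])
  exact ⟨v, hv0.symm, fun u hu => hv ⟨u, hu⟩⟩

/-- an invertible matrix with given first column -/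
theorem exists_col {v : Fin 2 → k} (hv : v ≠ 0) :
    ∃ A : GL (Fin 2) k, (A : Matrix (Fin 2) (Fin 2) k) *ᵥ (Pi.single 0 1) = v := by
  by_cases h0 : v 0 = 0
  · have h1 : v 1 ≠ 0 := by
      intro h1
      apply hv
      ext i
      fin_cases i
      · exact h0
      · exact h1
    refine ⟨Matrix.GeneralLinearGroup.mkOfDetNeZero !![0, 1; v 1, 0] ?_, ?_⟩
    · rw [Matrix.det_fin_two_of]
      simpa using h1
    · ext i
      fin_cases i <;> simp [h0, Matrix.GeneralLinearGroup.mkOfDetNeZero]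
  · refine ⟨Matrix.GeneralLinearGroup.mkOfDetNeZero !![v 0, 0; v 1, 1] ?_, ?_⟩
    · rw [Matrix.det_fin_two_of]
      simpa using h0
    · ext i
      fin_cases i <;> simp [Matrix.GeneralLinearGroup.mkOfDetNeZero]

/-- **vanishing of `H¹(G, ad⁰(1))`** for finite irreducible groups whose determinant contains
`𝔽_p^×` -/
theorem h1_vanish {p : ℕ} [hp : Fact p.Prime] [Algebra (ZMod p) k] [Finite k] [Finite G]
    (hp2 : p ≠ 2) (hinj : Function.Injective r)
    (hdetS : ∀ a : ZMod p, a ≠ 0 → ∃ g, (mt r g).det = algebraMap (ZMod p) k a)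
    (hirr : ∀ v : Fin 2 → k, v ≠ 0 → ∃ g, ∀ a : k, mt r g *ᵥ v ≠ a • v)
    (hc : Coc r c) : CobOn r Set.univ c := by
  classical
  have hchar : CharP k p := charP_of_injective_algebraMap (algebraMap (ZMod p) k).injective p
  obtain ⟨P⟩ : Nonempty (Sylow p G) := inferInstance
  obtain ⟨v, hv0, hv⟩ := exists_fixed (r := r) P
  obtain ⟨A, hA⟩ := exists_col hv0
  set A0 : Matrix (Fin 2) (Fin 2) k := (A : Matrix (Fin 2) (Fin 2) k) with hA0
  set B0 : Matrix (Fin 2) (Fin 2) k := ((A⁻¹ : GL (Fin 2) k) : Matrix (Fin 2) (Fin 2) k) with hB0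
  have hAB : A0 * B0 = 1 := by rw [hA0, hB0, ← Units.val_mul, mul_inv_cancel, Units.val_one]
  have hBA : B0 * A0 = 1 := by rw [hA0, hB0, ← Units.val_mul, inv_mul_cancel, Units.val_one]
  let r' : G →* GL (Fin 2) k := (MulAut.conj A⁻¹).toMonoidHom.comp r
  have hr' : ∀ g, mt r' g = B0 * mt r g * A0 := by
    intro g
    change ((A⁻¹ * r g * A⁻¹⁻¹ : GL (Fin 2) k) : Matrix (Fin 2) (Fin 2) k) = _
    rw [inv_inv, Units.val_mul, Units.val_mul]
    rfl
  have hBv : B0 *ᵥ v = Pi.single 0 1 := by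
    rw [← hA, Matrix.mulVec_mulVec, hBA, Matrix.one_mulVec]
  have hcol : ∀ M : Matrix (Fin 2) (Fin 2) k, (M *ᵥ (Pi.single 0 1 : Fin 2 → k)) 1 = M 1 0 ∧
      (M *ᵥ (Pi.single 0 1 : Fin 2 → k)) 0 = M 0 0 := by
    intro M
    rw [Matrix.mulVec_single_one]
    exact ⟨rfl, rfl⟩
  have hmv : ∀ g, mt r' g *ᵥ (Pi.single 0 1 : Fin 2 → k) = B0 *ᵥ (mt r g *ᵥ v) := by
    intro g
    rw [hr', ← hA, Matrix.mulVec_mulVec, Matrix.mulVec_mulVec]
  have hdet' : ∀ g, (mt r' g).det = (mt r g).det := by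
    intro g
    rw [hr', Matrix.det_mul, Matrix.det_mul, mul_right_comm, ← Matrix.det_mul, hBA,
      Matrix.det_one, one_mul]
  have hinj' : Function.Injective r' := (MulAut.conj A⁻¹).injective.comp hinj
  have hac : ∀ g X, ac r' g (B0 * X * A0) = B0 * ac r g X * A0 := by
    intro g X
    rw [ac_eq, ac_eq, hdet', hr', hr', Matrix.mul_smul, Matrix.smul_mul]
    congr 1
    calc B0 * mt r g * A0 * (B0 * X * A0) * (B0 * mt r g⁻¹ * A0) =
        B0 * mt r g * (A0 * B0) * X * (A0 * B0) * mt r g⁻¹ * A0 := by simp only [mul_assoc]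
      _ = B0 * (mt r g * X * mt r g⁻¹) * A0 := by rw [hAB]; simp only [mul_assoc, mul_one, one_mul]
  have htr : ∀ X : Matrix (Fin 2) (Fin 2) k, (B0 * X * A0).trace = X.trace := by
    intro X
    rw [Matrix.trace_mul_comm, ← mul_assoc, hAB, one_mul]
  have hc' : Coc r' (fun g => B0 * c g * A0) :=
    { mul := fun g h => by
        rw [hac, hc.mul, mul_add, add_mul]
      tr := fun g => by rw [htr, hc.tr] }
  have hirr' : ∃ g, mt r' g 1 0 ≠ 0 := by
    obtain ⟨g, hg⟩ := hirr v hv0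
    refine ⟨g, fun h => hg (mt r' g 0 0) ?_⟩
    have h1 : mt r' g *ᵥ (Pi.single 0 1 : Fin 2 → k) = mt r' g 0 0 • (Pi.single 0 1) := by
      ext i
      fin_cases i
      · change (mt r' g *ᵥ (Pi.single 0 1 : Fin 2 → k)) 0 = _
        rw [(hcol _).2]
        simp
      · change (mt r' g *ᵥ (Pi.single 0 1 : Fin 2 → k)) 1 = _
        rw [(hcol _).1, h]
        simp
    rw [hmv] at h1
    calc mt r g *ᵥ v = A0 *ᵥ (B0 *ᵥ (mt r g *ᵥ v)) := by
          rw [Matrix.mulVec_mulVec (mt r g *ᵥ v) A0 B0, hAB, Matrix.one_mulVec]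
      _ = mt r' g 0 0 • v := by rw [h1, Matrix.mulVec_smul, hA]
  obtain ⟨X, hX, h⟩ := main_norm (p := p) hp2 hinj'
    (fun a ha => by
      obtain ⟨g, hg⟩ := hdetS a ha
      exact ⟨g, by rw [hdet', hg]⟩) hirr' hc' P (fun u hu => by
      rw [← (hcol (mt r' u)).1, hmv, hv u hu, hBv]
      simp)
  refine ⟨A0 * X * B0, by rw [Matrix.trace_mul_comm, ← mul_assoc, hBA, one_mul, hX],
    fun g hg => ?_⟩
  have h1 := h g hg
  have e1 : X = B0 * (A0 * X * B0) * A0 := by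
    calc X = (B0 * A0) * X * (B0 * A0) := by rw [hBA, one_mul, mul_one]
      _ = _ := by simp only [mul_assoc]
  rw [e1, hac, ← sub_mul, ← mul_sub] at h1
  have key : ∀ Y : Matrix (Fin 2) (Fin 2) k, A0 * (B0 * Y * A0) * B0 = Y := by
    intro Y
    calc _ = (A0 * B0) * Y * (A0 * B0) := by simp only [mul_assoc]
      _ = Y := by rw [hAB, one_mul, mul_one]
  have h2 : B0 * c g * A0 = B0 * (ac r g (A0 * X * B0) - A0 * X * B0) * A0 := h1
  rw [← key (c g), h2, key]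

/-- the same for a homomorphism from an arbitrary group -/
theorem h1_vanish_hom {p : ℕ} [hp : Fact p.Prime] [Algebra (ZMod p) k] [Finite k]
    {Γ : Type*} [Group Γ] (hp2 : p ≠ 2) {ρ : Γ →* Matrix (Fin 2) (Fin 2) k}
    (hdetS : ∀ a : ZMod p, a ≠ 0 → ∃ g, (ρ g).det = algebraMap (ZMod p) k a)
    (hirr : ∀ v : Fin 2 → k, v ≠ 0 → ∃ g, ∀ a : k, ρ g *ᵥ v ≠ a • v)
    {c : Γ → Matrix (Fin 2) (Fin 2) k}
    (hmul : ∀ g h, c (g * h) = c g + (ρ g).det • (ρ g * c h * ρ g⁻¹))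
    (htr : ∀ g, (c g).trace = 0) (h1 : ∀ g, ρ g = 1 → c g = 0) :
    ∃ X : Matrix (Fin 2) (Fin 2) k, X.trace = 0 ∧
      ∀ g, c g = (ρ g).det • (ρ g * X * ρ g⁻¹) - X := by
  classical
  let R : Γ →* GL (Fin 2) k := MonoidHom.toHomUnits ρ
  have hR : ∀ g, ((R g : GL (Fin 2) k) : Matrix (Fin 2) (Fin 2) k) = ρ g := fun g => rfl
  have hRi : ∀ g, (((R g)⁻¹ : GL (Fin 2) k) : Matrix (Fin 2) (Fin 2) k) = ρ g⁻¹ := fun g => by
    rw [← map_inv, hR]
  let r : R.range →* GL (Fin 2) k := R.range.subtype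
  have hfinR : Finite R.range := inferInstance
  have hex : ∀ x : R.range, ∃ g, R g = x.1 := fun x => x.2
  choose s hs using hex
  have hwd : ∀ g h, R g = R h → c g = c h := by
    intro g h hgh
    have h2 : ρ (h⁻¹ * g) = 1 := by
      have : R (h⁻¹ * g) = 1 := by rw [map_mul, map_inv, hgh, inv_mul_cancel]
      rw [← hR, this, Units.val_one]
    have h3 := hmul h (h⁻¹ * g)
    rw [mul_inv_cancel_left, h1 _ h2, mul_zero, zero_mul, smul_zero, add_zero] at h3
    exact h3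
  have hmt : ∀ g : Γ, mt r ⟨R g, g, rfl⟩ = ρ g := fun g => rfl
  have hc : Coc r (fun x => c (s x)) :=
    { mul := fun x y => by
        have e : R (s (x * y)) = R (s x * s y) := by
          rw [map_mul, hs, hs, hs]
          rfl
        rw [hwd _ _ e, hmul, ac_eq]
        have e2 : mt r x = ρ (s x) := by rw [← hR, hs]; rfl
        have e3 : mt r x⁻¹ = ρ (s x)⁻¹ := by rw [← hRi, hs]; rfl
        rw [e2, e3]
      tr := fun x => htr _ }
  obtain ⟨X, hX, h⟩ := h1_vanish (p := p) (r := r) hp2 Subtype.val_injective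
    (fun a ha => by
      obtain ⟨g, hg⟩ := hdetS a ha
      exact ⟨⟨R g, g, rfl⟩, by rw [hmt, hg]⟩)
    (fun v hv => by
      obtain ⟨g, hg⟩ := hirr v hv
      exact ⟨⟨R g, g, rfl⟩, by rw [hmt]; exact hg⟩) hc
  refine ⟨X, hX, fun g => ?_⟩
  have h2 := h ⟨R g, g, rfl⟩ (Set.mem_univ _)
  rw [ac_eq, hmt] at h2
  have e3 : mt r (⟨R g, g, rfl⟩ : R.range)⁻¹ = ρ g⁻¹ := by rw [← hRi]; rfl
  rw [e3] at h2
  rw [← h2]
  exact hwd _ _ (hs ⟨R g, g, rfl⟩).symm

end Fermat.Agent.AdH1
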