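import Mathlib

/-!
# Fixed points on the projective line
-/

set_option autoImplicit false

noncomputable section

namespace Fermat.Agent.AdH1

open Matrix OnePoint

variable {K : Type*} [Field K]

/-- scalar matrices -/
def Sc (M : Matrix (Fin 2) (Fin 2) K) : Prop := M 0 1 = 0 ∧ M 1 0 = 0 ∧ M 0 0 = M 1 1

/-- the discriminant -/
def dsc (M : Matrix (Fin 2) (Fin 2) K) : K := (M 0 0 - M 1 1) ^ 2 + 4 * (M 0 1 * M 1 0)

/-- the trace-determinant formula for the discriminant -/
theorem dsc_eq (M : Matrix (Fin 2) (Fin 2) K) : dsc M = M.trace ^ 2 - 4 * M.det := by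
  rw [dsc, Matrix.trace_fin_two, Matrix.det_fin_two]; ring

variable [DecidableEq K]

theorem fix_infty {g : GL (Fin 2) K} : g • (∞ : OnePoint K) = ∞ ↔ g 1 0 = 0 :=
  smul_infty_eq_self_iff

theorem fix_coe {g : GL (Fin 2) K} {c : K} :
    g • (c : OnePoint K) = c ↔ g 1 0 * c ^ 2 + (g 1 1 - g 0 0) * c - g 0 1 = 0 := by
  rw [← Matrix.GeneralLinearGroup.fixpointPolynomial_aeval_eq_zero_iff]
  simp [Matrix.GeneralLinearGroup.fixpointPolynomial]

/-- scalars act trivially -/
theorem Sc.smul {g : GL (Fin 2) K} (hg : Sc (g : Matrix (Fin 2) (Fin 2) K)) (ω : OnePoint K) :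
    g • ω = ω := by
  cases ω with
  | infty => exact fix_infty.mpr hg.2.1
  | coe c =>
    rw [fix_coe, hg.1, hg.2.1, hg.2.2]
    ring

/-- a parabolic element has exactly one fixed point -/
theorem ncard_fix_one (h2 : (2 : K) ≠ 0) {g : GL (Fin 2) K}
    (hs : ¬ Sc (g : Matrix (Fin 2) (Fin 2) K)) (hd : dsc (g : Matrix (Fin 2) (Fin 2) K) = 0) :
    ∃ ω₀ : OnePoint K, ∀ ω, g • ω = ω ↔ ω = ω₀ := by
  rw [dsc] at hd
  by_cases hc : g 1 0 = 0
  · refine ⟨∞, fun ω => ?_⟩
    rw [hc, mul_zero, mul_zero, add_zero, sq_eq_zero_iff, sub_eq_zero] at hd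
    cases ω with
    | infty => exact ⟨fun _ => rfl, fun _ => fix_infty.mpr hc⟩
    | coe c =>
      rw [fix_coe, hc, hd]
      constructor
      · intro h
        exfalso
        exact hs ⟨by linear_combination -h, hc, hd⟩
      · intro h
        exact absurd h (coe_ne_infty c)
  · refine ⟨(((g 0 0 - g 1 1) / (2 * g 1 0) : K) : OnePoint K), fun ω => ?_⟩
    cases ω with
    | infty =>
      constructor
      · intro h
        exact absurd (fix_infty.mp h) hc
      · intro h
        exact absurd h (infty_ne_coe _)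
    | coe c =>
      rw [fix_coe, coe_eq_coe]
      have h2c : 2 * g 1 0 ≠ 0 := mul_ne_zero h2 hc
      rw [eq_div_iff h2c]
      constructor
      · intro h
        have h3 : (c * (2 * g 1 0) - (g 0 0 - g 1 1)) ^ 2 = 0 := by
          linear_combination (4 * g 1 0) * h + hd
        rw [sq_eq_zero_iff] at h3
        linear_combination h3
      · intro h
        have h4 : (4 * g 1 0) * (g 1 0 * c ^ 2 + (g 1 1 - g 0 0) * c - g 0 1) = 0 := by
          linear_combination (c * (2 * g 1 0) - (g 0 0 - g 1 1)) * h - hd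
        have h5 : (4 * g 1 0 : K) ≠ 0 := by
          have : (4 : K) = 2 * 2 := by norm_num
          rw [this]
          exact mul_ne_zero (mul_ne_zero h2 h2) hc
        exact (mul_eq_zero.mp h4).resolve_left h5

/-- a semisimple nonscalar element has exactly two fixed points -/
theorem ncard_fix_two [IsAlgClosed K] (h2 : (2 : K) ≠ 0) {g : GL (Fin 2) K}
    (hd : dsc (g : Matrix (Fin 2) (Fin 2) K) ≠ 0) :
    ∃ ω₀ ω₁ : OnePoint K, ω₀ ≠ ω₁ ∧ ∀ ω, g • ω = ω ↔ (ω = ω₀ ∨ ω = ω₁) := by
  rw [dsc] at hd
  by_cases hc : g 1 0 = 0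
  · rw [hc, mul_zero, mul_zero, add_zero] at hd
    have hd' : g 0 0 - g 1 1 ≠ 0 := fun h => hd (by rw [h]; ring)
    have hd2 : g 1 1 - g 0 0 ≠ 0 := fun h => hd' (by linear_combination -h)
    refine ⟨∞, ((g 0 1 / (g 1 1 - g 0 0) : K) : OnePoint K), infty_ne_coe _, fun ω => ?_⟩
    cases ω with
    | infty => exact ⟨fun _ => Or.inl rfl, fun _ => fix_infty.mpr hc⟩
    | coe c =>
      rw [fix_coe, hc, coe_eq_coe, eq_div_iff hd2]
      constructor
      · intro h
        right
        linear_combination h
      · rintro (h | h)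
        · exact absurd h (coe_ne_infty c)
        · linear_combination h
  · obtain ⟨s, hs⟩ := IsAlgClosed.exists_pow_nat_eq ((g 0 0 - g 1 1) ^ 2 + 4 * (g 0 1 * g 1 0))
      (n := 2) (by norm_num)
    have hs0 : s ≠ 0 := by
      rintro rfl
      exact hd (by rw [← hs]; ring)
    have h2c : 2 * g 1 0 ≠ 0 := mul_ne_zero h2 hc
    refine ⟨((((g 0 0 - g 1 1) + s) / (2 * g 1 0) : K) : OnePoint K),
      ((((g 0 0 - g 1 1) - s) / (2 * g 1 0) : K) : OnePoint K), ?_, fun ω => ?_⟩
    · rw [Ne, coe_eq_coe, div_left_inj' h2c]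
      intro h
      have : 2 * s = 0 := by linear_combination h
      exact hs0 ((mul_eq_zero.mp this).resolve_left h2)
    · cases ω with
      | infty =>
        constructor
        · intro h
          exact absurd (fix_infty.mp h) hc
        · rintro (h | h)
          · exact absurd h (infty_ne_coe _)
          · exact absurd h (infty_ne_coe _)
      | coe c =>
        rw [fix_coe, coe_eq_coe, coe_eq_coe, eq_div_iff h2c, eq_div_iff h2c]
        have h5 : (4 * g 1 0 : K) ≠ 0 := by
          have : (4 : K) = 2 * 2 := by norm_num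
          rw [this]
          exact mul_ne_zero (mul_ne_zero h2 h2) hc
        have key : (4 * g 1 0) * (g 1 0 * c ^ 2 + (g 1 1 - g 0 0) * c - g 0 1) =
            (c * (2 * g 1 0) - ((g 0 0 - g 1 1) + s)) *
              (c * (2 * g 1 0) - ((g 0 0 - g 1 1) - s)) := by
          linear_combination hs
        constructor
        · intro h
          rw [h, mul_zero] at key
          rcases mul_eq_zero.mp key.symm with h3 | h3
          · left; linear_combination h3
          · right; linear_combination h3
        · intro h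
          have h4 : (c * (2 * g 1 0) - ((g 0 0 - g 1 1) + s)) *
              (c * (2 * g 1 0) - ((g 0 0 - g 1 1) - s)) = 0 := by
            rcases h with h | h
            · rw [h]; ring
            · rw [h]; ring
          rw [h4] at key
          exact (mul_eq_zero.mp key).resolve_left h5

end Fermat.Agent.AdH1
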