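import Fermat.Agent.AdH1.Case

/-!
# Vanishing of `H¹(G, ad⁰(1))`
-/

set_option autoImplicit false
set_option maxHeartbeats 400000

noncomputable section

namespace Fermat.Agent.AdH1

open Matrix

variable {k : Type*} [Field k] {G : Type*} [Group G]
  {r : G →* GL (Fin 2) k} {c : G → Matrix (Fin 2) (Fin 2) k}

theorem mt_det_ne (g : G) : (mt r g).det ≠ 0 := by
  intro h
  have h1 := mt_mul_inv r g
  have h2 : (mt r g * mt r g⁻¹).det = 1 := by rw [h1, Matrix.det_one]
  rw [Matrix.det_mul, h, zero_mul] at h2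
  exact zero_ne_one h2

/-- the kernel of the determinant -/
def D1 (r : G →* GL (Fin 2) k) : Subgroup G where
  carrier := {g | (mt r g).det = 1}
  mul_mem' {a b} ha hb := by
    change (mt r (a * b)).det = 1
    rw [mt_mul, Matrix.det_mul, show (mt r a).det = 1 from ha, show (mt r b).det = 1 from hb,
      mul_one]
  one_mem' := by
    change (mt r 1).det = 1
    rw [mt_one, Matrix.det_one]
  inv_mem' {a} ha := by
    change (mt r a⁻¹).det = 1
    have h1 : (mt r a * mt r a⁻¹).det = 1 := by rw [mt_mul_inv, Matrix.det_one]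
    rwa [Matrix.det_mul, show (mt r a).det = 1 from ha, one_mul] at h1

theorem mem_D1 {g : G} : g ∈ D1 r ↔ (mt r g).det = 1 := Iff.rfl

instance D1_normal : (D1 r).Normal where
  conj_mem n hn g := by
    rw [mem_D1, mt_mul, mt_mul, Matrix.det_mul, Matrix.det_mul, mem_D1.mp hn, mul_one,
      ← Matrix.det_mul, mt_mul_inv, Matrix.det_one]

/-- elements conjugating a nontrivial unipotent into a unipotent are triangular -/
theorem lower_of_conj {n u v : G} (hu : Un (mt r u)) (hx : mt r u 0 1 ≠ 0) (hv : Un (mt r v))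
    (h : u * n = n * v) : mt r n 1 0 = 0 := by
  have h1 : mt r u * mt r n = mt r n * mt r v := by rw [← mt_mul, ← mt_mul, h]
  have h2 := congrFun (congrFun h1 0) 0
  simp only [Matrix.mul_apply, Fin.sum_univ_two, hu.2.1, hv.1, hv.2.1, mul_zero, add_zero,
    one_mul, mul_one] at h2
  have h3 : mt r u 0 1 * mt r n 1 0 = 0 := by linear_combination h2
  exact (mul_eq_zero.mp h3).resolve_left hx

theorem main_norm {p : ℕ} [hp : Fact p.Prime] [Algebra (ZMod p) k] [Finite k] [Finite G]
    (hp2 : p ≠ 2) (hinj : Function.Injective r)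
    (hdetS : ∀ a : ZMod p, a ≠ 0 → ∃ g, (mt r g).det = algebraMap (ZMod p) k a)
    (hirr : ∃ g, mt r g 1 0 ≠ 0)
    (hc : Coc r c) (P : Sylow p G) (hP : ∀ u ∈ P, mt r u 1 0 = 0) : CobOn r Set.univ c := by
  classical
  have hchar : CharP k p := charP_of_injective_algebraMap (algebraMap (ZMod p) k).injective p
  apply cob_of_sylow hc P
  have hUn : ∀ u ∈ P, Un (mt r u) := by
    intro u hu
    obtain ⟨n, hn⟩ := P.isPGroup' ⟨u, hu⟩
    have h1 : u ^ p ^ n = 1 := congrArg Subtype.val hn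
    obtain ⟨-, t2, t3⟩ := tri_pow (hP u hu) (p ^ n)
    refine ⟨hP u hu, ?_, ?_⟩
    · apply eq_one_of_pow (p := p) (n := n)
      rw [← t2, ← mt_pow, h1, mt_one]
      rfl
    · apply eq_one_of_pow (p := p) (n := n)
      rw [← t3, ← mt_pow, h1, mt_one]
      rfl
  have hPD : (P : Subgroup G) ≤ D1 r := by
    intro u hu
    obtain ⟨a1, a2, a3⟩ := hUn u hu
    rw [mem_D1, Matrix.det_fin_two, a1, a2, a3]
    ring
  by_cases htriv : (P : Subgroup G) = ⊥
  · refine ⟨0, Matrix.trace_zero _ _, fun g hg => ?_⟩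
    have hg' : g ∈ (P : Subgroup G) := hg
    rw [htriv, Subgroup.mem_bot] at hg'
    rw [hg', hc.one, ac_zero, sub_zero]
  obtain ⟨a, ha⟩ := (IsPGroup.iff_card.mp P.isPGroup')
  have ha0 : a ≠ 0 := by
    rintro rfl
    rw [pow_zero] at ha
    exact htriv ((Subgroup.card_eq_one).mp ha)
  -- a nontrivial element
  obtain ⟨u₀, hu₀P, hu₀⟩ : ∃ u ∈ (P : Subgroup G), u ≠ 1 := by
    by_contra hcon
    push Not at hcon
    exact htriv ((Subgroup.eq_bot_iff_forall _).mpr hcon)
  have h0 : mt r u₀ 0 1 ≠ 0 := fun h => hu₀ ((un_one_iff hinj (hUn _ hu₀P)).mp h)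
  by_cases ha1 : a = 1
  · -- order `p`
    rw [ha1, pow_one] at ha
    refine case_p hp2 hinj mt_det_ne hc hUn ha fun b hb => ?_
    obtain ⟨h, hh⟩ := hdetS b hb
    have htop := P.normalizer_sup_eq_top' hPD
    have hmem : h ∈ Subgroup.normalizer (P : Set G) ⊔ D1 r := by rw [htop]; exact Subgroup.mem_top _
    obtain ⟨n, hn, s, hs, hns⟩ := Subgroup.mem_sup_of_normal_right.mp hmem
    have hconj : ∀ u ∈ (P : Subgroup G), n * u * n⁻¹ ∈ (P : Subgroup G) := by
      intro u hu
      exact ((Subgroup.mem_normalizer_iff).mp hn u).mp hu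
    have hconj' : ∀ u ∈ (P : Subgroup G), n⁻¹ * u * n ∈ (P : Subgroup G) := by
      intro u hu
      apply ((Subgroup.mem_normalizer_iff).mp hn _).mpr
      have : n * (n⁻¹ * u * n) * n⁻¹ = u := by group
      rw [this]
      exact hu
    refine ⟨n, ?_, ?_, hconj⟩
    · rw [← hh, ← hns, mt_mul, Matrix.det_mul, mem_D1.mp hs, mul_one]
    · exact lower_of_conj (hUn _ hu₀P) h0 (hUn _ (hconj' _ hu₀P)) (by group)
  · -- bigger order
    have hcard5 : 5 < Nat.card (P : Subgroup G) := by
      rw [ha]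
      have hp3 : 3 ≤ p := by
        have := hp.out.two_le
        omega
      calc 5 < 3 ^ 2 := by norm_num
        _ ≤ p ^ 2 := Nat.pow_le_pow_left hp3 2
        _ ≤ p ^ a := Nat.pow_le_pow_right hp.out.pos (by omega)
    -- the special linear part
    let K := AlgebraicClosure k
    have hcharK : CharP K p := charP_of_injective_algebraMap (algebraMap k K).injective p
    let rK : D1 r →* GL (Fin 2) K :=
      (Matrix.GeneralLinearGroup.map (algebraMap k K)).comp (r.comp (D1 r).subtype)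
    have hmt : ∀ g : D1 r, ∀ i j, mt rK g i j = algebraMap k K (mt r g.1 i j) := fun g i j => rfl
    have hinjK : Function.Injective rK := by
      intro g g' h
      apply Subtype.ext
      apply eq_of_mt hinj
      ext i j
      apply (algebraMap k K).injective
      rw [← hmt, ← hmt, mt, mt, h]
    have hdetK : ∀ g, (mt rK g).det = 1 := by
      intro g
      have h1 := mem_D1.mp g.2
      rw [Matrix.det_fin_two] at h1
      rw [Matrix.det_fin_two, hmt, hmt, hmt, hmt, ← map_mul, ← map_mul, ← map_sub, h1, map_one]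
    let PK : Sylow p (D1 r) := P.subtype hPD
    have hPK : ∀ u : D1 r, u ∈ PK ↔ u.1 ∈ (P : Subgroup G) := fun u => Iff.rfl
    have hPKe : (PK : Subgroup (D1 r)) = Us rK hdetK := by
      apply sylow_eq_Us hinjK hdetK PK
      intro u hu
      rw [hmt, hP _ ((hPK u).mp hu), map_zero]
    have hcPK : Nat.card PK = Nat.card (P : Subgroup G) := by
      refine Nat.card_congr (Equiv.ofBijective (fun u => ⟨u.1.1, (hPK u.1).mp u.2⟩) ⟨?_, ?_⟩)
      · intro u u' h
        have h1 : u.1.1 = u'.1.1 := congrArg (fun x : (P : Subgroup G) => (x : G)) h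
        exact Subtype.ext (Subtype.ext h1)
      · rintro ⟨u, hu⟩
        exact ⟨⟨⟨u, hPD hu⟩, hu⟩, rfl⟩
    have hne : ∃ g : D1 r, mt rK g 1 0 ≠ 0 := by
      by_contra hcon
      push Not at hcon
      obtain ⟨h, hh⟩ := hirr
      apply hh
      have hconj : h⁻¹ * u₀ * h ∈ D1 r := by
        have := (D1_normal (r := r)).conj_mem u₀ (hPD hu₀P) h⁻¹
        rwa [inv_inv] at this
      have h10 : mt r (h⁻¹ * u₀ * h) 1 0 = 0 := by
        have := hcon ⟨_, hconj⟩
        rw [hmt] at this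
        exact (map_eq_zero (algebraMap k K)).mp this
      obtain ⟨n, hn⟩ := P.isPGroup' ⟨u₀, hu₀P⟩
      have h1 : u₀ ^ p ^ n = 1 := congrArg Subtype.val hn
      have h2 : (h⁻¹ * u₀ * h) ^ p ^ n = 1 := by
        have : (h⁻¹ * u₀ * h) ^ p ^ n = h⁻¹ * u₀ ^ p ^ n * h := by
          have e := conj_pow (i := p ^ n) (a := h⁻¹) (b := u₀)
          rwa [inv_inv] at e
        rw [this, h1]
        group
      obtain ⟨-, t2, t3⟩ := tri_pow h10 (p ^ n)
      refine lower_of_conj (v := h⁻¹ * u₀ * h) (hUn _ hu₀P) h0 ⟨h10, ?_, ?_⟩ (by group)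
      · apply eq_one_of_pow (p := p) (n := n)
        rw [← t2, ← mt_pow, h2, mt_one]
        rfl
      · apply eq_one_of_pow (p := p) (n := n)
        rw [← t3, ← mt_pow, h2, mt_one]
        rfl
    have hD := dickson (r := rK) (p := p) hp2 hinjK hdetK PK
      (fun u hu => by rw [hmt, hP _ ((hPK u).mp hu), map_zero]) (by rw [hcPK]; omega) hne
    have hLam : Nat.card (Lam rK) =
        Nat.card {x : k | ∃ n ∈ {n : G | (mt r n).det = 1 ∧ mt r n 1 0 = 0},
          x = mt r n 0 0 ^ 2} := by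
      have h1 : Lam rK = algebraMap k K '' {x : k | ∃ n ∈ {n : G | (mt r n).det = 1 ∧
          mt r n 1 0 = 0}, x = mt r n 0 0 ^ 2} := by
        ext x
        constructor
        · rintro ⟨g, h1, h2⟩
          refine ⟨mt r g.1 0 0 ^ 2, ⟨g.1, ⟨g.2, ?_⟩, rfl⟩, ?_⟩
          · rw [hmt] at h1
            exact (map_eq_zero (algebraMap k K)).mp h1
          · rw [h2, hmt, map_pow]
        · rintro ⟨y, ⟨g, ⟨h1, h2⟩, h3⟩, rfl⟩
          exact ⟨⟨g, h1⟩, by rw [hmt, h2, map_zero], by rw [h3, hmt, map_pow]⟩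
      rw [h1, Nat.card_coe_set_eq, Nat.card_coe_set_eq,
        Set.ncard_image_of_injective _ (algebraMap k K).injective]
    rw [hcPK, hLam] at hD
    refine case_big (p := p) hp2 hinj mt_det_ne hc hUn hcard5
      (N := {n : G | (mt r n).det = 1 ∧ mt r n 1 0 = 0}) ?_ hD
    rintro n ⟨hn1, hn2⟩
    refine ⟨hn1, hn2, fun u hu => ?_⟩
    obtain ⟨hun, -⟩ := conj_tri mt_det_ne hn2 (hUn u hu)
    have hmem : n * u * n⁻¹ ∈ D1 r := (D1_normal (r := r)).conj_mem u (hPD hu) n
    have h1 : (⟨n * u * n⁻¹, hmem⟩ : D1 r) ∈ (PK : Subgroup (D1 r)) := by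
      rw [hPKe]
      refine ⟨?_, ?_⟩
      · rw [hmt, hun.1, map_zero]
      · rw [hmt, hun.2.1, map_one]
    exact h1

end Fermat.Agent.AdH1
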