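import Fermat.Agent.AdH1.Coc

/-!
# Cocycles on upper triangular unipotent groups
-/

set_option autoImplicit false
set_option maxHeartbeats 400000

noncomputable section

namespace Fermat.Agent.AdH1

open Matrix

variable {k : Type*} [Field k] {G : Type*} [Group G]

/-- upper triangular unipotent matrices -/
def Un (M : Matrix (Fin 2) (Fin 2) k) : Prop := M 1 0 = 0 ∧ M 0 0 = 1 ∧ M 1 1 = 1

variable {r : G →* GL (Fin 2) k} {c : G → Matrix (Fin 2) (Fin 2) k}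

theorem ac_apply (g : G) (X : Matrix (Fin 2) (Fin 2) k) :
    ac r g X = !![mt r g 0 0, mt r g 0 1; mt r g 1 0, mt r g 1 1] * X *
      !![mt r g 1 1, - mt r g 0 1; - mt r g 1 0, mt r g 0 0] := by
  rw [ac, Matrix.adjugate_fin_two, ← Matrix.eta_fin_two]

theorem tr_eq {X : Matrix (Fin 2) (Fin 2) k} (h : X.trace = 0) : X 1 1 = - X 0 0 := by
  rw [Matrix.trace_fin_two] at h
  linear_combination h

theorem ac_tri {g : G} (hg : mt r g 1 0 = 0) {X : Matrix (Fin 2) (Fin 2) k} (hX : X.trace = 0) :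
    ac r g X 1 0 = mt r g 1 1 ^ 2 * X 1 0 ∧
    ac r g X 0 0 = mt r g 1 1 * (mt r g 0 0 * X 0 0 + mt r g 0 1 * X 1 0) ∧
    ac r g X 0 1 = mt r g 0 0 ^ 2 * X 0 1 - 2 * (mt r g 0 1 * mt r g 0 0) * X 0 0 -
      mt r g 0 1 ^ 2 * X 1 0 := by
  have h1 := tr_eq hX
  rw [ac_apply, hg]
  simp only [Matrix.mul_apply, Fin.sum_univ_two, Matrix.of_apply, Matrix.cons_val',
    Matrix.cons_val_zero, Matrix.cons_val_one, Matrix.cons_val_fin_one, Fin.isValue, h1]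
  refine ⟨?_, ?_, ?_⟩ <;> ring

theorem ac_un {g : G} (hg : Un (mt r g)) {X : Matrix (Fin 2) (Fin 2) k} (hX : X.trace = 0) :
    ac r g X 1 0 = X 1 0 ∧
    ac r g X 0 0 = X 0 0 + mt r g 0 1 * X 1 0 ∧
    ac r g X 0 1 = X 0 1 - 2 * mt r g 0 1 * X 0 0 - mt r g 0 1 ^ 2 * X 1 0 := by
  obtain ⟨h1, h2, h3⟩ := hg
  obtain ⟨e1, e2, e3⟩ := ac_tri h1 hX
  rw [e1, e2, e3, h2, h3]
  refine ⟨?_, ?_, ?_⟩ <;> ring

theorem un_mul {u v : G} (hu : Un (mt r u)) (hv : Un (mt r v)) :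
    mt r (u * v) 0 1 = mt r u 0 1 + mt r v 0 1 := by
  rw [mt_mul, Matrix.mul_apply, Fin.sum_univ_two, hu.2.1, hv.2.2]
  ring

theorem un_mul' {u v : G} (hu : Un (mt r u)) (hv : Un (mt r v)) : Un (mt r (u * v)) := by
  obtain ⟨a1, a2, a3⟩ := hu
  obtain ⟨b1, b2, b3⟩ := hv
  rw [mt_mul]
  refine ⟨?_, ?_, ?_⟩ <;> rw [Matrix.mul_apply, Fin.sum_univ_two] <;>
    simp only [a1, a2, a3, b1, b2, b3] <;> ring

theorem un_ext (hinj : Function.Injective r) {u v : G} (hu : Un (mt r u)) (hv : Un (mt r v))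
    (h : mt r u 0 1 = mt r v 0 1) : u = v := by
  apply eq_of_mt hinj
  ext i j
  fin_cases i <;> fin_cases j
  · exact hu.2.1.trans hv.2.1.symm
  · exact h
  · exact hu.1.trans hv.1.symm
  · exact hu.2.2.trans hv.2.2.symm

theorem un_comm (hinj : Function.Injective r) {u v : G} (hu : Un (mt r u)) (hv : Un (mt r v)) :
    u * v = v * u :=
  un_ext hinj (un_mul' hu hv) (un_mul' hv hu) (by rw [un_mul hu hv, un_mul hv hu, add_comm])

/-- cocycle relations -/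
theorem Coc.un (hc : Coc r c) {u v : G} (hu : Un (mt r u)) :
    c (u * v) 1 0 = c u 1 0 + c v 1 0 ∧
    c (u * v) 0 0 = c u 0 0 + c v 0 0 + mt r u 0 1 * c v 1 0 ∧
    c (u * v) 0 1 = c u 0 1 + c v 0 1 - 2 * mt r u 0 1 * c v 0 0 -
      mt r u 0 1 ^ 2 * c v 1 0 := by
  obtain ⟨e1, e2, e3⟩ := ac_un hu (hc.tr v)
  rw [hc.mul, Matrix.add_apply, Matrix.add_apply, Matrix.add_apply, e1, e2, e3]
  refine ⟨?_, ?_, ?_⟩ <;> ring

theorem Coc.delta (hc : Coc r c) (hinj : Function.Injective r) {P : Subgroup G}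
    (hP : ∀ u ∈ P, Un (mt r u)) {u₀ : G} (hu₀ : u₀ ∈ P) (h0 : mt r u₀ 0 1 ≠ 0) :
    ∃ δ : k, ∀ v ∈ P, c v 1 0 = δ * mt r v 0 1 := by
  refine ⟨c u₀ 1 0 / mt r u₀ 0 1, fun v hv => ?_⟩
  have h1 := (hc.un (v := v) (hP u₀ hu₀)).2.1
  have h2 := (hc.un (v := u₀) (hP v hv)).2.1
  rw [un_comm hinj (hP u₀ hu₀) (hP v hv), h2] at h1
  field_simp
  linear_combination -h1

theorem Coc.alpha (hc : Coc r c) (h2 : (2 : k) ≠ 0) (hinj : Function.Injective r) {P : Subgroup G}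
    (hP : ∀ u ∈ P, Un (mt r u)) {u₀ : G} (hu₀ : u₀ ∈ P) (h0 : mt r u₀ 0 1 ≠ 0)
    (hδ : ∀ v ∈ P, c v 1 0 = 0) :
    ∃ α : k, ∀ v ∈ P, c v 0 0 = α * mt r v 0 1 := by
  refine ⟨c u₀ 0 0 / mt r u₀ 0 1, fun v hv => ?_⟩
  have h1 := (hc.un (v := v) (hP u₀ hu₀)).2.2
  have h3 := (hc.un (v := u₀) (hP v hv)).2.2
  rw [un_comm hinj (hP u₀ hu₀) (hP v hv), h3, hδ v hv, hδ u₀ hu₀] at h1
  have h4 : 2 * (c v 0 0 * mt r u₀ 0 1 - c u₀ 0 0 * mt r v 0 1) = 0 := by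
    linear_combination h1
  have h5 := (mul_eq_zero.mp h4).resolve_left h2
  field_simp
  linear_combination h5

/-- reduction to the upper right entry -/
theorem cobOn_of (hc : Coc r c) (h2 : (2 : k) ≠ 0) (hinj : Function.Injective r) {P : Subgroup G}
    (hP : ∀ u ∈ P, Un (mt r u)) {u₀ : G} (hu₀ : u₀ ∈ P) (h0 : mt r u₀ 0 1 ≠ 0)
    (hδ : ∀ v ∈ P, c v 1 0 = 0)
    (hβ : ∀ c' : G → Matrix (Fin 2) (Fin 2) k, Coc r c' → (∀ v ∈ P, c' v 1 0 = 0) →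
      (∀ v ∈ P, c' v 0 0 = 0) → ∃ β : k, ∀ v ∈ P, c' v 0 1 = β * mt r v 0 1) :
    CobOn r (P : Set G) c := by
  obtain ⟨α, hα⟩ := hc.alpha h2 hinj hP hu₀ h0 hδ
  set F : Matrix (Fin 2) (Fin 2) k := !![0, 0; α, 0] with hF
  have hFt : F.trace = 0 := by
    rw [Matrix.trace_fin_two, hF]
    simp
  apply CobOn.of_sub hFt
  have hc' := hc.sub_cob hFt
  have hF00 : F 0 0 = 0 := rfl
  have hF01 : F 0 1 = 0 := rfl
  have hF10 : F 1 0 = α := rfl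
  obtain ⟨β, hβ'⟩ := hβ _ hc' (by
    intro v hv
    obtain ⟨e1, e2, e3⟩ := ac_un (hP v hv) hFt
    change c v 1 0 - (ac r v F 1 0 - F 1 0) = 0
    rw [e1, hδ v hv]
    ring) (by
    intro v hv
    obtain ⟨e1, e2, e3⟩ := ac_un (hP v hv) hFt
    change c v 0 0 - (ac r v F 0 0 - F 0 0) = 0
    rw [e2, hα v hv, hF10]
    ring)
  set X : Matrix (Fin 2) (Fin 2) k := !![-(β / 2), 0; 0, β / 2] with hX
  have hXt : X.trace = 0 := by
    rw [Matrix.trace_fin_two, hX]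
    simp
  have hX00 : X 0 0 = -(β / 2) := rfl
  have hX01 : X 0 1 = 0 := rfl
  have hX10 : X 1 0 = 0 := rfl
  refine ⟨X, hXt, fun v hv => ?_⟩
  obtain ⟨e1, e2, e3⟩ := ac_un (hP v hv) hFt
  obtain ⟨d1, d2, d3⟩ := ac_un (hP v hv) hXt
  have h01 := hβ' v hv
  change c v 0 1 - (ac r v F 0 1 - F 0 1) = β * mt r v 0 1 at h01
  have htr1 := tr_eq (hc.tr v)
  have htr2 := tr_eq (X := ac r v F) (by rw [trace_ac, hFt, mul_zero])
  have htr3 := tr_eq (X := ac r v X) (by rw [trace_ac, hXt, mul_zero])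
  have hF11 : F 1 1 = 0 := rfl
  have hX11 : X 1 1 = β / 2 := rfl
  ext i j
  fin_cases i <;> fin_cases j
  · change c v 0 0 - (ac r v F 0 0 - F 0 0) = ac r v X 0 0 - X 0 0
    rw [e2, d2, hα v hv, hF10, hX10]
    ring
  · change c v 0 1 - (ac r v F 0 1 - F 0 1) = ac r v X 0 1 - X 0 1
    rw [h01, d3, hX00, hX01, hX10]
    field_simp
    ring
  · change c v 1 0 - (ac r v F 1 0 - F 1 0) = ac r v X 1 0 - X 1 0
    rw [hδ v hv, e1, d1]
    ring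
  · change c v 1 1 - (ac r v F 1 1 - F 1 1) = ac r v X 1 1 - X 1 1
    rw [htr1, htr2, htr3, e2, d2, hα v hv, hF10, hX10, hF00, hX00, hF11, hX11]
    ring

/-! ### conjugation by normalizing elements -/

theorem conj_tri (hdt : ∀ g, (mt r g).det ≠ 0) {n u : G} (hn : mt r n 1 0 = 0)
    (hu : Un (mt r u)) : Un (mt r (n * u * n⁻¹)) ∧
      mt r (n * u * n⁻¹) 0 1 * mt r n 1 1 = mt r n 0 0 * mt r u 0 1 := by
  have hd := hdt n
  rw [Matrix.det_fin_two, hn, mul_zero, sub_zero] at hd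
  have ht1 : mt r n 0 0 ≠ 0 := left_ne_zero_of_mul hd
  have ht2 : mt r n 1 1 ≠ 0 := right_ne_zero_of_mul hd
  have h1 : mt r (n * u * n⁻¹) * mt r n = mt r n * mt r u := by
    rw [← mt_mul, ← mt_mul, inv_mul_cancel_right]
  have e := fun i j => congrFun (congrFun h1 i) j
  have e00 := e 0 0
  have e01 := e 0 1
  have e10 := e 1 0
  have e11 := e 1 1
  simp only [Matrix.mul_apply, Fin.sum_univ_two, hn, hu.1, hu.2.1, hu.2.2, mul_zero, add_zero,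
    zero_add, mul_one, zero_mul] at e00 e01 e10 e11
  have f10 : mt r (n * u * n⁻¹) 1 0 = 0 := (mul_eq_zero.mp e10).resolve_right ht1
  have f00 : mt r (n * u * n⁻¹) 0 0 = 1 := by
    apply mul_right_cancel₀ ht1
    rw [e00, one_mul]
  rw [f10, zero_mul, zero_add] at e11
  have f11 : mt r (n * u * n⁻¹) 1 1 = 1 := by
    apply mul_right_cancel₀ ht2
    rw [e11, one_mul]
  refine ⟨⟨f10, f00, f11⟩, ?_⟩
  rw [f00] at e01
  linear_combination e01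

/-- lower left entries of conjugates -/
theorem Coc.conj_delta (hc : Coc r c) (hdt : ∀ g, (mt r g).det ≠ 0) {n u : G}
    (hn : mt r n 1 0 = 0) (hu : Un (mt r u)) :
    c (n * u * n⁻¹) 1 0 = mt r n 1 1 ^ 2 * c u 1 0 := by
  have h1 := hc.conj n u
  obtain ⟨e1, -, -⟩ := ac_un (conj_tri hdt hn hu).1 (hc.tr n)
  obtain ⟨d1, -, -⟩ := ac_tri hn (hc.tr u)
  rw [h1, Matrix.sub_apply, Matrix.sub_apply, e1, d1]
  ring

/-- if `δ ≠ 0` then `t₁ = t₂³` for the normalizing elements -/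
theorem Coc.delta_ne (hc : Coc r c) (hdt : ∀ g, (mt r g).det ≠ 0) {P : Subgroup G}
    (hP : ∀ u ∈ P, Un (mt r u)) {u₀ : G} (hu₀ : u₀ ∈ P) (h0 : mt r u₀ 0 1 ≠ 0) {δ : k}
    (hδ : ∀ v ∈ P, c v 1 0 = δ * mt r v 0 1) (hδ0 : δ ≠ 0) {n : G} (hn : mt r n 1 0 = 0)
    (hnP : n * u₀ * n⁻¹ ∈ P) : mt r n 0 0 = mt r n 1 1 ^ 3 := by
  have h1 := hc.conj_delta hdt hn (hP u₀ hu₀)
  obtain ⟨-, h2⟩ := conj_tri hdt hn (hP u₀ hu₀)
  rw [hδ _ hnP, hδ _ hu₀] at h1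
  apply mul_right_cancel₀ (mul_ne_zero hδ0 h0)
  linear_combination mt r n 1 1 * h1 - δ * h2

/-- diagonal entries: for `c` concentrated in the upper right corner -/
theorem Coc.conj_beta (hc : Coc r c) (hdt : ∀ g, (mt r g).det ≠ 0) {n u : G}
    (hn : mt r n 1 0 = 0) (hu : Un (mt r u)) (h0 : mt r u 0 1 ≠ 0)
    (h10 : c u 1 0 = 0) (h00 : c u 0 0 = 0) (h00' : c (n * u * n⁻¹) 0 0 = 0) :
    c n 1 0 = 0 := by
  have h1 := hc.conj n u
  obtain ⟨-, e2, -⟩ := ac_un (conj_tri hdt hn hu).1 (hc.tr n)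
  obtain ⟨-, d2, -⟩ := ac_tri hn (hc.tr u)
  have h3 := congrFun (congrFun h1 0) 0
  rw [Matrix.sub_apply, Matrix.sub_apply, e2, d2, h10, h00, h00'] at h3
  obtain ⟨-, h2⟩ := conj_tri hdt hn hu
  have hd := hdt n
  rw [Matrix.det_fin_two, hn, mul_zero, sub_zero] at hd
  have h4 : (mt r n 0 0 * mt r u 0 1) * c n 1 0 = 0 := by
    linear_combination (mt r n 1 1) * h3 - c n 1 0 * h2
  exact (mul_eq_zero.mp h4).resolve_left (mul_ne_zero (left_ne_zero_of_mul hd) h0)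

/-- upper right entries of conjugates -/
theorem Coc.conj_beta' (hc : Coc r c) (hdt : ∀ g, (mt r g).det ≠ 0) {n u : G}
    (hn : mt r n 1 0 = 0) (hu : Un (mt r u))
    (h10 : c u 1 0 = 0) (h00 : c u 0 0 = 0) (hcn : c n 1 0 = 0) :
    c (n * u * n⁻¹) 0 1 = mt r n 0 0 ^ 2 * c u 0 1 + 2 * mt r (n * u * n⁻¹) 0 1 * c n 0 0 := by
  have h1 := hc.conj n u
  obtain ⟨-, -, e3⟩ := ac_un (conj_tri hdt hn hu).1 (hc.tr n)
  obtain ⟨-, -, d3⟩ := ac_tri hn (hc.tr u)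
  have h3 := congrFun (congrFun h1 0) 1
  rw [Matrix.sub_apply, Matrix.sub_apply, e3, d3, h10, h00, hcn] at h3
  rw [h3]
  ring

end Fermat.Agent.AdH1
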