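import Fermat.Agent.AdH1.Unip

/-!
# The action on the special points of the projective line
-/

set_option autoImplicit false

noncomputable section

namespace Fermat.Agent.AdH1

open Matrix OnePoint MulAction

variable {K : Type*} [Field K] [DecidableEq K] {G : Type*} [Group G]

/-- points fixed by some nonscalar element -/
def Pt (r : G →* GL (Fin 2) K) : Type _ :=
  {ω : OnePoint K // ∃ g, ¬ Sc (mt r g) ∧ r g • ω = ω}

instance Pt.act (r : G →* GL (Fin 2) K) : MulAction G (Pt r) where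
  smul g ω := ⟨r g • ω.1, by
    obtain ⟨h, h1, h2⟩ := ω.2
    refine ⟨g * h * g⁻¹, ?_, ?_⟩
    · intro h3
      apply h1
      have h4 := sc_conj (A := (r g)⁻¹) h3
      rw [mt_conj] at h4
      rw [inv_inv] at h4
      have e : (((r g)⁻¹ : GL (Fin 2) K) : Matrix (Fin 2) (Fin 2) K) *
          ((r g : Matrix (Fin 2) (Fin 2) K) * mt r h * ((r g)⁻¹ : GL (Fin 2) K)) *
          (r g : Matrix (Fin 2) (Fin 2) K) = mt r h := by
        have e1 : (((r g)⁻¹ : GL (Fin 2) K) : Matrix (Fin 2) (Fin 2) K) *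
          (r g : Matrix (Fin 2) (Fin 2) K) = 1 := by
          rw [← Units.val_mul, inv_mul_cancel, Units.val_one]
        calc _ = ((((r g)⁻¹ : GL (Fin 2) K) : Matrix (Fin 2) (Fin 2) K) *
          (r g : Matrix (Fin 2) (Fin 2) K)) * mt r h * ((((r g)⁻¹ : GL (Fin 2) K) :
            Matrix (Fin 2) (Fin 2) K) * (r g : Matrix (Fin 2) (Fin 2) K)) := by
              simp only [mul_assoc]
          _ = _ := by rw [e1, one_mul, mul_one]
      rwa [e] at h4
    · rw [map_mul, map_mul, map_inv, mul_smul, mul_smul, inv_smul_smul, h2]⟩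
  one_smul ω := Subtype.ext (by
    change r 1 • ω.1 = ω.1
    rw [map_one, one_smul])
  mul_smul g h ω := Subtype.ext (by
    change r (g * h) • ω.1 = r g • r h • ω.1
    rw [map_mul, mul_smul])

variable {r : G →* GL (Fin 2) K}

theorem Pt.smul_val (g : G) (ω : Pt r) : (g • ω).1 = r g • ω.1 := rfl

theorem Pt.smul_eq_iff (g : G) (ω ω' : Pt r) : g • ω = ω' ↔ r g • ω.1 = ω'.1 := by
  rw [← Pt.smul_val]
  exact Subtype.ext_iff

/-- the fixed points of a parabolic element -/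
theorem Pt.fix_one (h2 : (2 : K) ≠ 0) {g : G} (hs : ¬ Sc (mt r g)) (hd : dsc (mt r g) = 0) :
    ∃ ω₀ : Pt r, ∀ ω : Pt r, g • ω = ω ↔ ω = ω₀ := by
  obtain ⟨ω₀, h⟩ := ncard_fix_one h2 hs hd
  refine ⟨⟨ω₀, g, hs, (h ω₀).mpr rfl⟩, fun ω => ?_⟩
  rw [Pt.smul_eq_iff, h]
  exact ⟨fun e => Subtype.ext e, fun e => congrArg Subtype.val e⟩

theorem Pt.fix_two [IsAlgClosed K] (h2 : (2 : K) ≠ 0) {g : G} (hd : dsc (mt r g) ≠ 0) :
    ∃ ω₀ ω₁ : Pt r, ω₀ ≠ ω₁ ∧ ∀ ω : Pt r, g • ω = ω ↔ (ω = ω₀ ∨ ω = ω₁) := by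
  obtain ⟨ω₀, ω₁, hne, h⟩ := ncard_fix_two h2 hd
  have hs : ¬ Sc (mt r g) := by
    rintro ⟨h3, h4, h5⟩
    apply hd
    rw [dsc, h3, h4, h5]
    ring
  refine ⟨⟨ω₀, g, hs, (h ω₀).mpr (Or.inl rfl)⟩, ⟨ω₁, g, hs, (h ω₁).mpr (Or.inr rfl)⟩,
    fun e => hne (congrArg Subtype.val e), fun ω => ?_⟩
  rw [Pt.smul_eq_iff, h]
  constructor
  · rintro (h | h)
    · exact Or.inl (Subtype.ext h)
    · exact Or.inr (Subtype.ext h)
  · rintro (h | h)
    · exact Or.inl (congrArg Subtype.val h)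
    · exact Or.inr (congrArg Subtype.val h)

theorem Pt.finite [IsAlgClosed K] [Finite G] (h2 : (2 : K) ≠ 0) : Finite (Pt r) := by
  have hfin : ∀ g : {g : G // ¬ Sc (mt r g)}, ({ω : Pt r | (g : G) • ω = ω}).Finite := by
    intro g
    by_cases hd : dsc (mt r g) = 0
    · obtain ⟨ω₀, h⟩ := Pt.fix_one h2 g.2 hd
      exact (Set.finite_singleton ω₀).subset fun ω hω => (h ω).mp hω
    · obtain ⟨ω₀, ω₁, _, h⟩ := Pt.fix_two h2 hd
      refine ((Set.finite_singleton ω₁).insert ω₀).subset fun ω hω => ?_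
      rcases (h ω).mp hω with h | h
      · exact Or.inl h
      · exact Or.inr h
  have h1 : (Set.univ : Set (Pt r)) ⊆ ⋃ g : {g : G // ¬ Sc (mt r g)},
      {ω : Pt r | (g : G) • ω = ω} := by
    intro ω _
    obtain ⟨g, hg1, hg2⟩ := ω.2
    exact Set.mem_iUnion.mpr ⟨⟨g, hg1⟩, Subtype.ext hg2⟩
  exact Set.finite_univ_iff.mp ((Set.finite_iUnion hfin).subset h1)

theorem Pt.card_fix_one (h2 : (2 : K) ≠ 0) {g : G} (hs : ¬ Sc (mt r g)) (hd : dsc (mt r g) = 0) :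
    Nat.card (fixedBy (Pt r) g) = 1 := by
  obtain ⟨ω₀, h⟩ := Pt.fix_one h2 hs hd
  have : fixedBy (Pt r) g = {ω₀} := by
    ext ω
    exact h ω
  rw [this, Nat.card_coe_set_eq, Set.ncard_singleton]

theorem Pt.card_fix_two [IsAlgClosed K] (h2 : (2 : K) ≠ 0) {g : G} (hd : dsc (mt r g) ≠ 0) :
    Nat.card (fixedBy (Pt r) g) = 2 := by
  obtain ⟨ω₀, ω₁, hne, h⟩ := Pt.fix_two h2 hd
  have : fixedBy (Pt r) g = {ω₀, ω₁} := by
    ext ω
    exact h ω
  rw [this, Nat.card_coe_set_eq, Set.ncard_pair hne]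

/-- a scalar unipotent element is trivial -/
theorem Us_Zs (hinj : Function.Injective r) {hdet : ∀ g, (mt r g).det = 1} {g : G}
    (hg : g ∈ Us r hdet) (hz : g ∈ Zs r) : g = 1 := by
  apply eq_of_mt hinj
  rw [mt_one, Us_mt hg, hz.1]
  exact Matrix.one_fin_two.symm

/-- the stabilizer of infinity -/
theorem mem_St_iff {hdet : ∀ g, (mt r g).det = 1} {g : G} :
    g ∈ St r hdet ↔ r g • (∞ : OnePoint K) = ∞ := fix_infty.symm

/-- scalars and unipotents: the elements `g` of the stabilizer with `(r g 0 0)² = 1` -/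
theorem ker_decomp {p : ℕ} [hp : Fact p.Prime] [CharP K p] (hp2 : p ≠ 2)
    (hinj : Function.Injective r) (hdet : ∀ g, (mt r g).det = 1) {g : G} (hg : mt r g 1 0 = 0)
    (h1 : mt r g 0 0 ^ 2 = 1) : ∃ z ∈ Zs r, ∃ u ∈ Us r hdet, g = z * u := by
  have hdt := hdet g
  rw [Matrix.det_fin_two, hg, mul_zero, sub_zero] at hdt
  have hd : dsc (mt r g) = 0 := by
    rw [dsc, hg, mul_zero, mul_zero, add_zero]
    have h3 : mt r g 0 0 = mt r g 1 1 := by
      calc mt r g 0 0 = mt r g 0 0 * (mt r g 0 0 * mt r g 1 1) := by rw [hdt, mul_one]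
        _ = mt r g 0 0 ^ 2 * mt r g 1 1 := by ring
        _ = mt r g 1 1 := by rw [h1, one_mul]
    rw [h3, sub_self]
    ring
  obtain ⟨z, hz, u, hgu, hup⟩ := par_decomp hp2 hinj hdet hd
  have hzS : z ∈ St r hdet := hz.2.1
  have huS : u ∈ St r hdet := by
    have : u = z⁻¹ * g := by rw [hgu]; group
    rw [this]
    exact (St r hdet).mul_mem ((St r hdet).inv_mem hzS) hg
  refine ⟨z, hz, u, ⟨huS, ?_⟩, hgu⟩
  have h4 := (tri_pow (show mt r u 1 0 = 0 from huS) p).2.1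
  rw [← mt_pow, hup, mt_one] at h4
  apply eq_one_of_pow (p := p) (n := 1)
  rw [pow_one, ← h4]
  rfl

end Fermat.Agent.AdH1
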