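import Fermat.Agent.AdH1.Final
import Fermat.Agent.TWPr.Cond

/-!
# The residual conditions for Taylor–Wiles primes in general
-/

set_option autoImplicit false
set_option maxHeartbeats 400000

noncomputable section

namespace Fermat.Agent.AdH1

open Matrix Fermat.Agent.DefRing Fermat.Agent.GalRep Fermat.Agent.S43Glue Fermat.Agent.TWPr

local notation "Qbar" => AlgebraicClosure ℚ

variable {p : ℕ} [hpf : Fact p.Prime] {k : Type} [Field k] [Algebra (ZMod p) k]
  {ρ : GQ →* Matrix (Fin 2) (Fin 2) k}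

/-- the field `h1` of `TWCond` -/
theorem tw_h1 [Finite k] (hp2 : p ≠ 2) (hdet : ∀ g, (ρ g).det = chk p k g)
    (hirr : ∀ v : Fin 2 → k, v ≠ 0 → ∃ g, ∀ a : k, ρ g *ᵥ v ≠ a • v)
    (c : GQ → Matrix (Fin 2) (Fin 2) k) (hc : TwC p ρ c) (h1 : ∀ g, ρ g = 1 → c g = 0) :
    TwB p ρ c := by
  obtain ⟨X, hX, h⟩ := h1_vanish_hom (p := p) hp2 (ρ := ρ) (c := c)
    (fun a ha => by
      obtain ⟨g, hg⟩ := exists_chiK (p := p) a ha
      refine ⟨g, ?_⟩
      rw [hdet, ← hg]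
      rfl) hirr
    (fun g h => by
      rw [hc.mul, hdet]
      rfl) hc.tr h1
  refine ⟨X, hX, fun g => ?_⟩
  rw [h, hdet]
  rfl

end Fermat.Agent.AdH1
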