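import Fermat.Agent.AdH1.Fix
import Fermat.Agent.AdH1.Count

/-!
# Unipotent elements of finite subgroups of `SL₂`
-/

set_option autoImplicit false

noncomputable section

namespace Fermat.Agent.AdH1

open Matrix OnePoint

variable {K : Type*} [Field K]

theorem sc_iff {M : Matrix (Fin 2) (Fin 2) K} : Sc M ↔ ∃ a : K, M = a • 1 := by
  constructor
  · rintro ⟨h1, h2, h3⟩
    refine ⟨M 0 0, ?_⟩
    ext i j
    fin_cases i <;> fin_cases j <;> simp [h1, h2, h3]
  · rintro ⟨a, rfl⟩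
    simp [Sc]

theorem dsc_conj (A : GL (Fin 2) K) (M : Matrix (Fin 2) (Fin 2) K) :
    dsc ((A : Matrix (Fin 2) (Fin 2) K) * M * ((A⁻¹ : GL (Fin 2) K) : Matrix _ _ K)) = dsc M := by
  have hA : ((A⁻¹ : GL (Fin 2) K) : Matrix (Fin 2) (Fin 2) K) * (A : Matrix (Fin 2) (Fin 2) K) =
      1 := by rw [← Units.val_mul, inv_mul_cancel, Units.val_one]
  rw [dsc_eq, dsc_eq, Matrix.trace_mul_comm, ← mul_assoc, hA, one_mul, Matrix.det_mul,
    Matrix.det_mul, mul_right_comm, ← Matrix.det_mul]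
  have hA' : (A : Matrix (Fin 2) (Fin 2) K) * ((A⁻¹ : GL (Fin 2) K) : Matrix (Fin 2) (Fin 2) K) =
      1 := by rw [← Units.val_mul, mul_inv_cancel, Units.val_one]
  rw [hA', Matrix.det_one, one_mul]

theorem sc_conj {A : GL (Fin 2) K} {M : Matrix (Fin 2) (Fin 2) K} (h : Sc M) :
    Sc ((A : Matrix (Fin 2) (Fin 2) K) * M * ((A⁻¹ : GL (Fin 2) K) : Matrix _ _ K)) := by
  obtain ⟨a, rfl⟩ := sc_iff.mp h
  refine sc_iff.mpr ⟨a, ?_⟩
  rw [Matrix.mul_smul, mul_one, Matrix.smul_mul, ← Units.val_mul, mul_inv_cancel, Units.val_one]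

theorem pow_unip {M : Matrix (Fin 2) (Fin 2) K} (h : (M - 1) * (M - 1) = 0) (n : ℕ) :
    M ^ n = 1 + n • (M - 1) := by
  induction n with
  | zero => simp
  | succ n ih =>
    rw [pow_succ, ih]
    have e : M = 1 + (M - 1) := by abel
    calc (1 + n • (M - 1)) * M = (1 + n • (M - 1)) * (1 + (M - 1)) := by rw [← e]
      _ = 1 + (M - 1) + n • (M - 1) + n • ((M - 1) * (M - 1)) := by
          rw [mul_add, mul_one, add_mul, one_mul, smul_mul_assoc]; abel
      _ = 1 + (n + 1) • (M - 1) := by rw [h, smul_zero, add_zero, add_smul, one_smul]; abel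

theorem sq_of_tr {M : Matrix (Fin 2) (Fin 2) K} (hd : M.det = 1) (ht : M.trace = 2) :
    (M - 1) * (M - 1) = 0 := by
  rw [Matrix.det_fin_two] at hd
  rw [Matrix.trace_fin_two] at ht
  ext i j
  fin_cases i <;> fin_cases j
  · simp only [Matrix.mul_apply, Fin.sum_univ_two, Matrix.sub_apply, Matrix.one_apply, Fin.isValue,
      Fin.zero_eta, Fin.mk_one, Matrix.zero_apply, ↓reduceIte, zero_ne_one, one_ne_zero]
    linear_combination M 0 0 * ht - hd
  · simp only [Matrix.mul_apply, Fin.sum_univ_two, Matrix.sub_apply, Matrix.one_apply, Fin.isValue,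
      Fin.zero_eta, Fin.mk_one, Matrix.zero_apply, ↓reduceIte, zero_ne_one, one_ne_zero]
    linear_combination M 0 1 * ht
  · simp only [Matrix.mul_apply, Fin.sum_univ_two, Matrix.sub_apply, Matrix.one_apply, Fin.isValue,
      Fin.zero_eta, Fin.mk_one, Matrix.zero_apply, ↓reduceIte, zero_ne_one, one_ne_zero]
    linear_combination M 1 0 * ht
  · simp only [Matrix.mul_apply, Fin.sum_univ_two, Matrix.sub_apply, Matrix.one_apply, Fin.isValue,
      Fin.zero_eta, Fin.mk_one, Matrix.zero_apply, ↓reduceIte, zero_ne_one, one_ne_zero]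
    linear_combination M 1 1 * ht - hd

theorem pow_char_of_tr {p : ℕ} [CharP K p] {M : Matrix (Fin 2) (Fin 2) K} (hd : M.det = 1)
    (ht : M.trace = 2) : M ^ p = 1 := by
  rw [pow_unip (sq_of_tr hd ht)]
  have : (p • (M - 1) : Matrix (Fin 2) (Fin 2) K) = 0 := by
    ext i j
    rw [Matrix.smul_apply, nsmul_eq_mul, CharP.cast_eq_zero, zero_mul, Matrix.zero_apply]
  rw [this, add_zero]

theorem eq_one_of_pow {p : ℕ} [hp : Fact p.Prime] [CharP K p] {x : K} {n : ℕ}
    (h : x ^ p ^ n = 1) : x = 1 := by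
  have : ExpChar K p := ExpChar.prime hp.out
  have h1 : (x - 1) ^ p ^ n = 0 := by
    rw [sub_pow_char_pow, h, one_pow, sub_self]
  have h2 : x - 1 = 0 := pow_eq_zero_iff (pow_pos hp.out.pos n).ne' |>.mp h1
  exact sub_eq_zero.mp h2

/-- diagonal entries of powers of triangular matrices -/
theorem tri_pow {M : Matrix (Fin 2) (Fin 2) K} (h : M 1 0 = 0) (n : ℕ) :
    (M ^ n) 1 0 = 0 ∧ (M ^ n) 0 0 = M 0 0 ^ n ∧ (M ^ n) 1 1 = M 1 1 ^ n := by
  induction n with
  | zero => simp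
  | succ n ih =>
    obtain ⟨h1, h2, h3⟩ := ih
    simp [pow_succ, Matrix.mul_apply, Fin.sum_univ_two, h1, h2, h3, h]

section Grp

variable {G : Type*} [Group G] (r : G →* GL (Fin 2) K)

/-- the matrix of an element -/
def mt (g : G) : Matrix (Fin 2) (Fin 2) K := (r g : Matrix (Fin 2) (Fin 2) K)

theorem mt_mul (g h : G) : mt r (g * h) = mt r g * mt r h := by
  rw [mt, map_mul, Units.val_mul]; rfl

theorem mt_one : mt r 1 = 1 := by rw [mt, map_one, Units.val_one]

theorem mt_pow (g : G) (n : ℕ) : mt r (g ^ n) = mt r g ^ n := by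
  rw [mt, map_pow, Units.val_pow_eq_pow_val]; rfl

theorem mt_inv_mul (g : G) : mt r g⁻¹ * mt r g = 1 := by
  rw [← mt_mul, inv_mul_cancel, mt_one]

theorem mt_mul_inv (g : G) : mt r g * mt r g⁻¹ = 1 := by
  rw [← mt_mul, mul_inv_cancel, mt_one]

theorem mt_conj (g h : G) : mt r (g * h * g⁻¹) = (r g : Matrix (Fin 2) (Fin 2) K) * mt r h *
    ((r g)⁻¹ : GL (Fin 2) K) := by
  rw [mt_mul, mt_mul]
  congr 1
  rw [mt, map_inv]

/-- entries of the inverse of a matrix of determinant one -/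
theorem mt_inv (hdet : ∀ g, (mt r g).det = 1) (g : G) :
    mt r g⁻¹ = !![mt r g 1 1, - mt r g 0 1; - mt r g 1 0, mt r g 0 0] := by
  have h1 : mt r g * !![mt r g 1 1, - mt r g 0 1; - mt r g 1 0, mt r g 0 0] = 1 := by
    have := hdet g
    rw [Matrix.det_fin_two] at this
    ext i j
    fin_cases i <;> fin_cases j <;>
      simp [Matrix.mul_apply, Fin.sum_univ_two]
    · linear_combination this
    · ring
    · ring
    · linear_combination this
  calc mt r g⁻¹ = mt r g⁻¹ * (mt r g * !![mt r g 1 1, - mt r g 0 1; - mt r g 1 0, mt r g 0 0]) := by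
        rw [h1, mul_one]
    _ = _ := by rw [← mul_assoc, mt_inv_mul, one_mul]

/-- the scalar elements -/
def Zs : Subgroup G where
  carrier := {g | Sc (mt r g)}
  mul_mem' {a b} ha hb := by
    obtain ⟨x, hx⟩ := sc_iff.mp ha
    obtain ⟨y, hy⟩ := sc_iff.mp hb
    refine sc_iff.mpr ⟨x * y, ?_⟩
    rw [mt_mul, hx, hy, Matrix.smul_mul, one_mul, smul_smul]
  one_mem' := sc_iff.mpr ⟨1, by rw [mt_one, one_smul]⟩
  inv_mem' {a} ha := by
    obtain ⟨x, hx⟩ := sc_iff.mp ha
    have h1 := mt_mul_inv r a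
    rw [hx, Matrix.smul_mul, one_mul] at h1
    have hx0 : x ≠ 0 := by
      rintro rfl
      rw [zero_smul] at h1
      exact zero_ne_one h1
    refine sc_iff.mpr ⟨x⁻¹, ?_⟩
    rw [← h1, smul_smul, inv_mul_cancel₀ hx0, one_smul]

theorem mem_Zs {g : G} : g ∈ Zs r ↔ Sc (mt r g) := Iff.rfl

/-- the stabilizer of the point at infinity -/
def St (hdet : ∀ g, (mt r g).det = 1) : Subgroup G where
  carrier := {g | mt r g 1 0 = 0}
  mul_mem' {a b} ha hb := by
    change mt r (a * b) 1 0 = 0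
    change mt r a 1 0 = 0 at ha
    change mt r b 1 0 = 0 at hb
    rw [mt_mul, Matrix.mul_apply, Fin.sum_univ_two, ha, hb, zero_mul, mul_zero, add_zero]
  one_mem' := by
    change mt r 1 1 0 = 0
    rw [mt_one]
    exact Matrix.one_apply_ne (by decide)
  inv_mem' {a} ha := by
    change mt r a⁻¹ 1 0 = 0
    rw [mt_inv r hdet]
    change - mt r a 1 0 = 0
    rw [show mt r a 1 0 = 0 from ha, neg_zero]

variable {r}

theorem mem_St {hdet : ∀ g, (mt r g).det = 1} {g : G} : g ∈ St r hdet ↔ mt r g 1 0 = 0 := Iff.rfl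

theorem eq_of_mt (hinj : Function.Injective r) {g h : G} (h1 : mt r g = mt r h) : g = h :=
  hinj (Units.ext h1)

/-- the upper triangular unipotent elements -/
def Us (r : G →* GL (Fin 2) K) (hdet : ∀ g, (mt r g).det = 1) : Subgroup G where
  carrier := {g | mt r g 1 0 = 0 ∧ mt r g 0 0 = 1}
  mul_mem' {a b} ha hb := by
    refine ⟨(St r hdet).mul_mem ha.1 hb.1, ?_⟩
    rw [mt_mul, Matrix.mul_apply, Fin.sum_univ_two, ha.2, hb.2, hb.1, mul_one, mul_zero, add_zero]
  one_mem' := ⟨(St r hdet).one_mem, by rw [mt_one]; rfl⟩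
  inv_mem' {a} ha := by
    refine ⟨(St r hdet).inv_mem ha.1, ?_⟩
    rw [mt_inv r hdet]
    change mt r a 1 1 = 1
    have := hdet a
    rw [Matrix.det_fin_two, ha.1, ha.2, mul_zero, sub_zero, one_mul] at this
    exact this

theorem mem_Us {hdet : ∀ g, (mt r g).det = 1} {g : G} :
    g ∈ Us r hdet ↔ mt r g 1 0 = 0 ∧ mt r g 0 0 = 1 := Iff.rfl

theorem Us_11 {hdet : ∀ g, (mt r g).det = 1} {g : G} (h : g ∈ Us r hdet) : mt r g 1 1 = 1 := by
  have := hdet g
  rw [Matrix.det_fin_two, h.1, h.2, mul_zero, sub_zero, one_mul] at this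
  exact this

theorem Us_mt {hdet : ∀ g, (mt r g).det = 1} {g : G} (h : g ∈ Us r hdet) :
    mt r g = !![1, mt r g 0 1; 0, 1] := by
  ext i j
  fin_cases i <;> fin_cases j
  · exact h.2
  · rfl
  · exact h.1
  · exact Us_11 h

theorem Us_pgroup {p : ℕ} [hp : Fact p.Prime] [CharP K p] (hinj : Function.Injective r)
    (hdet : ∀ g, (mt r g).det = 1) : IsPGroup p (Us r hdet) := by
  rintro ⟨g, hg⟩
  refine ⟨1, Subtype.ext ?_⟩
  rw [pow_one]
  change g ^ p = 1
  apply eq_of_mt hinj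
  rw [mt_pow, mt_one]
  apply pow_char_of_tr (hdet g)
  rw [Matrix.trace_fin_two, hg.2, Us_11 hg]
  norm_num

/-- the Sylow subgroup fixing infinity is the group of upper triangular unipotents -/
theorem sylow_eq_Us {p : ℕ} [hp : Fact p.Prime] [CharP K p] (hinj : Function.Injective r)
    (hdet : ∀ g, (mt r g).det = 1) (P : Sylow p G) (hP : ∀ u ∈ P, mt r u 1 0 = 0) :
    (P : Subgroup G) = Us r hdet := by
  refine (P.is_maximal' (Us_pgroup (p := p) hinj hdet) ?_).symm
  intro u hu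
  refine ⟨hP u hu, ?_⟩
  obtain ⟨n, hn⟩ := P.isPGroup' ⟨u, hu⟩
  have h1 : u ^ p ^ n = 1 := congrArg Subtype.val hn
  apply eq_one_of_pow (p := p) (n := n)
  rw [← (tri_pow (hP u hu) (p ^ n)).2.1, ← mt_pow, h1, mt_one]
  rfl

/-- a parabolic element is a scalar times an element of order `p` -/
theorem par_decomp {p : ℕ} [hp : Fact p.Prime] [CharP K p] (hp2 : p ≠ 2)
    (hinj : Function.Injective r) (hdet : ∀ g, (mt r g).det = 1) {g : G}
    (hd : dsc (mt r g) = 0) : ∃ z ∈ Zs r, ∃ u, g = z * u ∧ u ^ p = 1 := by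
  have h2 : (2 : K) ≠ 0 := by
    intro h
    have h3 : ((2 : ℕ) : K) = 0 := by exact_mod_cast h
    rw [CharP.cast_eq_zero_iff K p] at h3
    exact hp2 ((Nat.prime_dvd_prime_iff_eq hp.out Nat.prime_two).mp h3)
  rw [dsc_eq, hdet] at hd
  have h3 : ((mt r g).trace - 2) * ((mt r g).trace + 2) = 0 := by linear_combination hd
  have key : ∀ u : G, (mt r u).trace = 2 → u ^ p = 1 := by
    intro u hu
    apply eq_of_mt hinj
    rw [mt_pow, mt_one]
    exact pow_char_of_tr (hdet u) hu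
  rcases mul_eq_zero.mp h3 with h4 | h4
  · exact ⟨1, (Zs r).one_mem, g, (one_mul g).symm, key g (sub_eq_zero.mp h4)⟩
  · have hodd : Odd p := hp.out.odd_of_ne_two hp2
    have h5 : mt r (g ^ p) = -1 := by
      have h6 : (-mt r g) ^ p = 1 := by
        apply pow_char_of_tr
        · rw [Matrix.det_neg, Fintype.card_fin, hdet]; norm_num
        · rw [Matrix.trace_neg]; linear_combination -h4
      rw [hodd.neg_pow] at h6
      rw [mt_pow, ← h6, neg_neg]
    refine ⟨g ^ p, sc_iff.mpr ⟨-1, by rw [h5, neg_smul, one_smul]⟩, (g ^ p)⁻¹ * g, by group, ?_⟩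
    apply key
    have h7 : mt r (g ^ p)⁻¹ = -1 := by
      have h8 := mt_mul_inv r (g ^ p)
      rw [h5, neg_mul, one_mul] at h8
      rw [← h8, neg_neg]
    rw [mt_mul, h7, neg_mul, one_mul, Matrix.trace_neg]
    linear_combination -h4

end Grp

end Fermat.Agent.AdH1
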